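import Fermat.Agent.ModField.Congruence.Regular
import Fermat.Agent.Curve.Duality
import Fermat.Agent.CurveRed.Haupt.Series
import Fermat.Agent.ModField.Igusa.Series

/-!
# Degree bounds for the modular polynomial of prime level

`j(qz)` is a root of a monic polynomial over `L[j]` whose coefficient of degree `m` has degree at
most `q + 1` in `j`, and at most `q` for `m > 0`; hence the pole orders of `j(qz)` are at most `q`
times those of `j`.
-/

set_option autoImplicit false
set_option linter.style.haveILetI false
set_option linter.unusedSectionVars false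
set_option synthInstance.maxHeartbeats 200000
set_option maxHeartbeats 800000

noncomputable section

namespace FA.ModField

open ModularCurve AlgebraicCurve FA.Curve Polynomial

/-- Coefficients of a product of linear factors, roots with a pole. -/
theorem ordGE_coeff_prod_sub_C {R : Type*} [CommRing R] {ι : Type*} (s : Finset ι)
    (r : ι → LaurentSeries R) (a : ι → ℤ) (ha : ∀ i ∈ s, a i ≤ -1)
    (hr : ∀ i ∈ s, OrdGE (a i) (r i)) (m : ℕ) :
    OrdGE ((∑ i ∈ s, a i) + m) ((∏ i ∈ s, (X - C (r i))).coeff m) := by
  classical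
  induction s using Finset.induction generalizing m with
  | empty =>
    rw [Finset.sum_empty, Finset.prod_empty, Polynomial.coeff_one]
    split_ifs with h
    · subst h; simpa using ordGE_one
    · exact ordGE_zero _
  | @insert b t hb ih =>
    have h := ih (fun i hi => ha i (Finset.mem_insert_of_mem hi))
      (fun i hi => hr i (Finset.mem_insert_of_mem hi))
    have hab := ha b (Finset.mem_insert_self _ _)
    have hrb := hr b (Finset.mem_insert_self _ _)
    rw [Finset.sum_insert hb, Finset.prod_insert hb, sub_mul, Polynomial.coeff_sub,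
      Polynomial.coeff_C_mul]
    refine OrdGE.sub ?_ ((hrb.mul (h m)).mono (by linarith))
    cases m with
    | zero => rw [Polynomial.coeff_X_mul_zero]; exact ordGE_zero _
    | succ m => rw [Polynomial.coeff_X_mul]; exact (h m).mono (by push_cast; linarith)

/-- A root of a monic relation with bounded coefficients has bounded poles. -/
theorem atLeast_of_bounded_relation {K F : Type*} [Field K] [Field F] [Algebra K F] (q : ℕ)
    (hq : 2 ≤ q) {v : Place K F} {y z : F} (c : ℕ → K[X])
    (hdeg : ∀ m ≤ q, q * (c m).natDegree ≤ q * q + q - m)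
    (hrel : z ^ (q + 1) + ∑ m ∈ Finset.range (q + 1), aeval y (c m) * z ^ m = 0) :
    AtLeast v ((q : ℤ) * min 0 (v.ord y)) z := by
  rcases eq_or_ne z 0 with rfl | hz
  · exact atLeast_zero
  refine Or.inr ?_
  by_contra hlt
  push Not at hlt
  set e := min 0 (v.ord y) with he
  have he0 : e ≤ 0 := min_le_left _ _
  have hey : AtLeast v e y := Or.inr (min_le_right _ _)
  -- the value of a coefficient
  have hc : ∀ p : K[X], AtLeast v ((p.natDegree : ℤ) * e) (aeval y p) := fun p => by
    rw [aeval_eq_sum_range]
    refine atLeast_sum fun i hi => ?_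
    rw [Algebra.smul_def]
    refine ((atLeast_algebraMap (v := v) _).mul (atLeast_pow hey i)).mono ?_
    have h1 : (i : ℤ) ≤ p.natDegree := by
      exact_mod_cast Nat.lt_succ_iff.1 (Finset.mem_range.1 hi)
    have h2 := mul_le_mul_of_nonpos_right h1 he0
    linarith
  have hsum : AtLeast v (((q : ℤ) + 1) * v.ord z + 1)
      (∑ m ∈ Finset.range (q + 1), aeval y (c m) * z ^ m) := by
    refine atLeast_sum fun m hm => ?_
    have hmq : m ≤ q := Nat.lt_succ_iff.1 (Finset.mem_range.1 hm)
    refine ((hc (c m)).mul (atLeast_pow (atLeast_ord (v := v) z) m)).mono ?_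
    have h1 := hdeg m hmq
    have hd : ((c m).natDegree : ℤ) ≤ (q : ℤ) * ((q : ℤ) + 1 - m) := by
      rcases hmq.eq_or_lt with rfl | hlt'
      · have h2 : (c m).natDegree ≤ m := by
          rw [Nat.add_sub_cancel] at h1
          exact Nat.le_of_mul_le_mul_left h1 (by omega)
        have h3 : ((c m).natDegree : ℤ) ≤ m := by exact_mod_cast h2
        linarith
      · have h2 : (c m).natDegree ≤ q + 1 := by
          refine Nat.le_of_mul_le_mul_left (h1.trans ?_) (by omega : 0 < q)
          rw [mul_add, mul_one]; omega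
        have h3 : ((c m).natDegree : ℤ) ≤ q + 1 := by exact_mod_cast h2
        have h4 : (2 : ℤ) ≤ (q : ℤ) + 1 - m := by omega
        have h5 := mul_le_mul_of_nonneg_left h4 (Int.natCast_nonneg q)
        omega
    have h6 := mul_le_mul_of_nonpos_right hd he0
    have h7 : ((q : ℤ) + 1 - m) * (v.ord z + 1) ≤ ((q : ℤ) + 1 - m) * ((q : ℤ) * e) :=
      mul_le_mul_of_nonneg_left (by omega) (by omega)
    have h8 : (1 : ℤ) ≤ (q : ℤ) + 1 - m := by omega
    nlinarith
  rw [add_eq_zero_iff_eq_neg] at hrel
  have hord : v.ord (z ^ (q + 1)) = ((q : ℤ) + 1) * v.ord z := by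
    rw [place_ord_pow]; push_cast; ring
  rcases hsum.neg with h0 | h1
  · exact pow_ne_zero _ hz (hrel.trans h0)
  · rw [← hrel, hord] at h1
    omega

variable (q : ℕ) [hq : Fact q.Prime] [NeZero q]
variable (L : Type) [Field L] [Algebra ℚ L] [Algebra L ℂ] [IsAlgClosed L]

/-- The modular polynomial, as a relation between series. -/
theorem exists_modRel : ∃ c : ℕ → L[X], (∀ m ≤ q, q * (c m).natDegree ≤ q * q + q - m) ∧
    qExpand L q (jqModC L) ^ (q + 1) +
      ∑ m ∈ Finset.range (q + 1), aeval (jqModC L) (c m) * qExpand L q (jqModC L) ^ m = 0 := by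
  classical
  have hq1 : ¬ q ∣ 1 := fun h => hq.out.ne_one (Nat.dvd_one.1 h)
  set P := heckePoly 1 q L (levelJ 1 L) with hPdef
  have hpc : powComb (algebraMap L (levelField 1 L) 0) (levelGen 1 L) = levelJ 1 L := by
    simp [powComb, levelGen_zero]
  have htop : IntermediateField.adjoin L {levelJ 1 L} = ⊤ := by
    haveI := (isFunctionField_level L 1).finiteDimensional (levelJ_transcendental 1 L)
    refine IntermediateField.finrank_eq_one_iff_eq_top.1 ?_
    rw [finrank_levelJ]
    exact dedekindPsi_one
  have hpoly : ∀ m, ∃ p : L[X], P.coeff m = aeval (levelJ 1 L) p := fun m => by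
    refine FA.Curve.exists_poly (isFunctionField_level L 1) (levelJ_transcendental 1 L)
      (by rw [htop]; trivial) fun v hv => ?_
    have h := atLeast_coeff_heckePoly 1 q L 0 (v := v) (Or.inr hv) m
    rwa [hpc] at h
  choose c hc using hpoly
  refine ⟨c, fun m hm => ?_, ?_⟩
  · -- degrees
    rcases eq_or_ne (c m) 0 with h0 | h0
    · simp [h0]
    haveI : NeZero (q * q) := ⟨mul_ne_zero hq.out.ne_zero hq.out.ne_zero⟩
    set p : ℂ[X] := (c m).map (algebraMap L ℂ) with hp
    have hd : p.natDegree = (c m).natDegree := natDegree_map _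
    have hser : qExpand ℂ q (toCSer L (P.coeff m)) = evalJ ℂ q p := by
      rw [hc m,
        show evalJ ℂ q p = qExpand ℂ q (evalJ ℂ 1 p) by rw [qExpand_evalJ]; congr 1; simp]
      congr 1
      rw [evalJ, Polynomial.coe_eval₂RingHom, hp, Polynomial.eval₂_map, qExpand_one_apply,
        aeval_def, Polynomial.hom_eval₂, show toCSer L (levelJ 1 L) = jqModC ℂ from
          coeffMap_jqModC _]
      congr 1
      refine RingHom.ext fun a => ?_
      show coeffMap (algebraMap L ℂ) (algebraMap L (LaurentSeries L) a) =
        HahnSeries.C (algebraMap L ℂ a)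
      rw [algebraMap_laurentSeries_eq_single, coeffMap_single, HahnSeries.C_apply]
    have hroots : ∀ i : Option (Fin q),
        OrdGE (if i = none then -((q : ℤ) * q) else -1)
          (conjMap q (zetaN q) i (toCSer L (levelJ 1 L))) := by
      rw [show toCSer L (levelJ 1 L) = jqModC ℂ from coeffMap_jqModC _]
      rintro (_ | b)
      · rw [if_pos rfl]
        show OrdGE _ (qExpand ℂ (q * q) (jqModC ℂ))
        exact (FA.CurveRed.Haupt.OrdGE.qExpand (q * q) ordGE_jqModC).mono (by push_cast; linarith)
      · rw [if_neg (by simp)]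
        show OrdGE _ (twist (zetaN q ^ (b : ℕ)) (jqModC ℂ))
        intro i hi
        rw [twist_coeff, ordGE_jqModC i hi, mul_zero]
    have hneg : ∀ i ∈ (Finset.univ : Finset (Option (Fin q))),
        (if i = none then -((q : ℤ) * q) else -1) ≤ -1 := by
      intro i _
      have h1 : (1 : ℤ) ≤ (q : ℤ) * q := by
        exact_mod_cast Nat.one_le_iff_ne_zero.2 (NeZero.ne (q * q))
      split_ifs <;> omega
    have hbound := ordGE_coeff_prod_sub_C Finset.univ _ _ hneg (fun i _ => hroots i) m
    rw [Fintype.sum_option, if_pos rfl, Finset.sum_congr rfl fun b _ => if_neg (Option.some_ne_none b),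
      Finset.sum_const, Finset.card_univ, Fintype.card_fin] at hbound
    have hcoef : (conjPoly 1 q L (levelJ 1 L)).coeff m = evalJ ℂ q p := by
      rw [← qExpand_coeff_heckePoly 1 q hq1 L, ← hPdef, hser]
    rw [conjPoly] at hcoef
    rw [hcoef] at hbound
    by_contra hlt
    push Not at hlt
    have h1 := hbound (-((q : ℤ) * p.natDegree)) (by
      rw [hd]
      have h2 : ((q * q + q - m : ℕ) : ℤ) < ((q * (c m).natDegree : ℕ) : ℤ) := by exact_mod_cast hlt
      rw [Nat.cast_sub (by omega)] at h2
      push_cast at h2 ⊢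
      rw [nsmul_eq_mul]
      push_cast
      linarith)
    rw [evalJ_coeff_lead] at h1
    exact Polynomial.leadingCoeff_ne_zero.2
      (by rw [hp]; exact (Polynomial.map_ne_zero_iff (algebraMap L ℂ).injective).2 h0) h1
  · -- the relation
    letI := algebraAlong (heckeAlphaBar L 1 q)
    haveI : FiniteDimensional (levelField 1 L) (levelField (1 * q) L) :=
      finiteAlong (isFunctionField_level L 1) (isFunctionField_level L (1 * q))
        (heckeAlphaBar L 1 q)
    have h0 : P.eval₂ (heckeAlphaBar L 1 q).toRingHom (heckeBetaBar L 1 q (levelJ 1 L)) = 0 :=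
      aeval_mulCharpoly _
    have hdeg := natDegree_heckePoly 1 q hq1 L (levelJ 1 L)
    rw [Polynomial.eval₂_eq_sum_range' _ (n := q + 1 + 1) (Nat.lt_succ_of_le hdeg.le),
      Finset.sum_range_succ,
      show P.coeff (q + 1) = 1 from hdeg ▸ (heckePoly_monic 1 q L (levelJ 1 L)).coeff_natDegree,
      map_one, one_mul (heckeBetaBar L 1 q (levelJ 1 L) ^ (q + 1)), add_comm] at h0
    have h1 := congrArg (fun z : levelField (1 * q) L => (z : LaurentSeries L)) h0
    simp only [AddMemClass.coe_add, SubmonoidClass.coe_pow, AddSubmonoidClass.coe_finsetSum,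
      MulMemClass.coe_mul, ZeroMemClass.coe_zero, coe_heckeBetaBar, coe_levelJ] at h1
    refine Eq.trans ?_ h1
    refine congrArg _ (Finset.sum_congr rfl fun m _ => congrArg (· * _) ?_)
    rw [show ((heckeAlphaBar L 1 q).toRingHom (P.coeff m) : LaurentSeries L) =
      ((P.coeff m : levelField 1 L) : LaurentSeries L) from coe_heckeAlphaBar 1 q _, hc m]
    exact (Polynomial.aeval_algHom_apply (levelField 1 L).val (levelJ 1 L) (c m))

end FA.ModField
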