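import Fermat.Agent.ModField.Semistable.RedModular
import Fermat.Agent.ModField.Semistable.X0.ModPoly
import Fermat.Agent.ModField.Semistable.Joint.Basic
import Fermat.Agent.CurveRed.ModularBase

/-!
# The two reductions of `X₀(M q)` at `q` on the images of level `M`

With `V` the `q`-expansion map `f(T) ↦ f(T^q)` downstairs: on the component of `∞` the images of
`e` under the two degeneracy maps reduce to `ē` and `V ē`, on the component of `0` to `V ē` and
`ē`.  The two reductions are independent, and `j`, `j(qz)` are integral on both.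
-/

set_option autoImplicit false
set_option linter.style.haveILetI false
set_option linter.unusedSectionVars false
set_option synthInstance.maxHeartbeats 400000
set_option maxHeartbeats 800000

noncomputable section

namespace FA.ModField.X0

open ModularCurve AlgebraicCurve FA.Curve FA.CurveRed FA.CurveRed.Modular FA.CurveRed.ConstRed
  IntermediateField

variable (M : ℕ) [NeZero M] (q : ℕ) [hq : Fact q.Prime]

section Down

variable (k : Type) [Field k] [IsAlgClosed k] [CharP k q]

theorem qExpand_mem_down [NeZero q] {x : LaurentSeries k}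
    (hx : x ∈ modularFunctionFieldFullC k M) : qExpand k q x ∈ modularFunctionFieldFullC k M := by
  have h : qExpand k q x = coeffMap ((frobeniusEquiv k q).symm : k →+* k) x ^ q := by
    rw [pow_char_eq_qExpand, coeffMap_coeffMap]
    congr 1
    refine Eq.trans (coeffMap_id x).symm (coeffMap_congr (RingHom.ext fun a => ?_) x)
    exact ((frobeniusEquiv k q).apply_symm_apply a).symm
  rw [h]
  exact pow_mem (coeffMap_mem_fullC M _ hx) q

variable [NeZero q]

/-- `f(T) ↦ f(T^q)` on the function field downstairs. -/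
def qV : modularFunctionFieldFullC k M →+* modularFunctionFieldFullC k M :=
  ((qExpand k q).comp (modularFunctionFieldFullC k M).val.toRingHom).codRestrict _
    fun x => qExpand_mem_down M q k x.2

theorem coe_qV (x : modularFunctionFieldFullC k M) :
    (qV M q k x : LaurentSeries k) = qExpand k q (x : LaurentSeries k) := rfl

theorem qV_const (a : k) : qV M q k (algebraMap k (modularFunctionFieldFullC k M) a) =
    algebraMap k (modularFunctionFieldFullC k M) a := Subtype.ext (by
  rw [coe_qV]
  show qExpand k q (algebraMap k (LaurentSeries k) a) = algebraMap k (LaurentSeries k) a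
  rw [algebraMap_laurentSeries_eq_single, qExpand_single, mul_zero])

theorem qV_eq_pow (x : modularFunctionFieldFullC k M) :
    qV M q k x = fullMap M ((frobeniusEquiv k q).symm : k →+* k) x ^ q := by
  apply Subtype.ext
  rw [coe_qV, SubmonoidClass.coe_pow, coe_fullMap, pow_char_eq_qExpand, coeffMap_coeffMap]
  congr 1
  refine Eq.trans (coeffMap_id _).symm (coeffMap_congr (RingHom.ext fun a => ?_) _)
  exact ((frobeniusEquiv k q).apply_symm_apply a).symm

theorem qV_jBar : qV M q k (jBar k M) = jBar k M ^ q := by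
  apply Subtype.ext
  rw [coe_qV, SubmonoidClass.coe_pow]
  have h := jqd_pow_prime (k := k) q 1
  rw [qExpand_one_apply] at h
  exact h.symm

theorem jBar_pow_transcendental {n : ℕ} (hn : n ≠ 0) :
    Transcendental k (jBar k M ^ n) := fun h =>
  jBar_transcendental k M (h.of_pow (Nat.pos_of_ne_zero hn))

end Down

variable [hq0 : NeZero q]
variable {L : Type} [Field L] [Algebra ℚ L] [Algebra L ℂ] [IsAlgClosed L]
variable (A : ValuationSubring L) {k : Type} [Field k] [IsAlgClosed k] [CharP k q] (π : A →+* k)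
  (hπs : Function.Surjective π) (hπ0 : ∀ a : A, π a = 0 ↔ A.valuation a < 1) (hqM : ¬ q ∣ M)
  (harch : ∀ c : L, c ≠ 0 → ∃ m : ℕ, A.valuation ((q : L) ^ m) < A.valuation c)

local notation "Fk" => modularFunctionFieldFullC k M
local notation "αM" => heckeAlphaBar L M q
local notation "βM" => heckeBetaBar L M q
local notation "CI" => cInf M q A π hπs hπ0 hqM harch
local notation "CZ" => cZero M q A π hπs hπ0 hqM harch

/-- The reduction at level `M`. -/
def redLvl : ConstRed L (levelField M L) k (modularFunctionFieldFullC k M) A :=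
  redComap (redN A π M hπs hπ0) (lvlEquiv L M)

theorem redLvl_gen (d : ℕ) [NeZero d] (hd : d ∣ M) :
    (redLvl M A π hπs hπ0).Red (lvlGenD L M d hd)
      ⟨qExpand k d (jqModC k), jqModCd_mem_full k M hd⟩ := by
  rw [redLvl, redComap_red]
  have e : lvlEquiv L M (lvlGenD L M d hd) =
      ⟨qExpand L d (jqModC L), jqModCd_mem_full L M hd⟩ :=
    Subtype.ext ((coe_lvlEquiv L M _).trans (coe_lvlGenD L M d hd))
  rw [e]
  exact red_gen d hd

theorem redLvl_levelJ : (redLvl M A π hπs hπ0).Red (levelJ M L) (jBar k M) := by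
  rw [redLvl, redComap_red]
  rw [show lvlEquiv L M (levelJ M L) = jElem L M from Subtype.ext (coe_lvlEquiv L M _)]
  exact red_jElem

include hπ0 in
/-- The chart `j` at level `M`. -/
theorem chart_redLvl (hqM : ¬ q ∣ M) :
    (redLvl M A π hπs hπ0).Chart (levelJ M L) (jBar k M) := by
  haveI : CharZero L := charZero_of_injective_algebraMap (algebraMap ℚ L).injective
  have hk := natCast_level_ne_zero M q A π hπs hπ0 (k := k) hqM
  have h := chartJ (L := L) (A := A) (π := π) (hπs := hπs) (hπ0 := hπ0) hk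
  refine ⟨redLvl_levelJ M A π hπs hπ0, h.trans, ?_, ?_⟩
  · rw [finrank_levelJ]
    exact psi_le_finrank hk
  · refine (congrArg (IntermediateField.adjoin k) (Set.ext fun r => ?_)).trans h.gen
    constructor
    · rintro ⟨f, hf⟩
      exact ⟨lvlEquiv L M f, hf⟩
    · rintro ⟨f, hf⟩
      exact ⟨(lvlEquiv L M).symm f, by
        rw [redLvl, redComap_red, AlgEquiv.apply_symm_apply]; exact hf⟩

/-- Series with integral coefficients reduce on the component of `∞`. -/
theorem cInf_series (Y : LaurentSeries A) {f : levelField (M * q) L}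
    (hY : coeffMap (A.subtype : A →+* L) Y = (f : LaurentSeries L)) :
    ∃ r : Fk, (r : LaurentSeries k) = coeffMap π Y ∧ (CI).Red f r := by
  obtain ⟨hr, h⟩ := redInf_series M q A π hπs hπ0 hqM harch Y
    (f := lvlEquiv L (M * q) f) (hY.trans (coe_lvlEquiv L (M * q) f).symm)
  exact ⟨⟨_, hr⟩, rfl, redComap_red.2 h⟩

theorem cInf_alpha {e : levelField M L} {r : Fk} (h : (redLvl M A π hπs hπ0).Red e r) :
    (CI).Red (αM e) r := by
  rw [redLvl, redComap_red] at h
  refine redComap_red.2 ?_
  have e1 : lvlEquiv L (M * q) (αM e) = inclLevel M q L (lvlEquiv L M e) := Subtype.ext (by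
    rw [coe_lvlEquiv, coe_heckeAlphaBar, coe_inclLevel, coe_lvlEquiv])
  rw [e1]
  exact redInf_compat M q A π hπs hπ0 hqM harch _ _ h

theorem cInf_beta {e : levelField M L} {r : Fk} (h : (redLvl M A π hπs hπ0).Red e r) :
    (CI).Red (βM e) (qV M q k r) := by
  rw [redLvl, redComap_red, redN, constRedOfQuot_red] at h
  obtain ⟨a, b, hb, ha, hr⟩ := h
  have hmem : ∀ c : intRing A π M,
      coeffMap (A.subtype : A →+* L) (qExpand A q (c : LaurentSeries A)) ∈
        levelField (M * q) L := fun c => by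
    rw [coeffMap_qExpand]
    have h1 := (βM ((lvlEquiv L M).symm ⟨_, c.2.1⟩)).2
    rw [coe_heckeBetaBar, coe_lvlEquiv_symm] at h1
    exact h1
  rw [cInf_red]
  refine ⟨qExpand A q (a : LaurentSeries A), qExpand A q (b : LaurentSeries A), hmem a, hmem b,
    ?_, ?_, ?_⟩
  · rw [coeffMap_qExpand]
    exact fun h0 => hb (Subtype.ext (qExpand_injective q (h0.trans (map_zero _).symm)))
  · have h1 := congrArg Subtype.val ha
    rw [coe_heckeBetaBar, coeffMap_qExpand, coeffMap_qExpand, ← map_mul, ← coe_lvlEquiv L M e]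
    exact congrArg (qExpand L q) h1
  · rw [coe_qV, coeffMap_qExpand, coeffMap_qExpand, ← map_mul]
    exact congrArg (qExpand k q) (congrArg Subtype.val hr)

theorem wLvl_alpha (e : levelField M L) : wLvl M q L hqM (αM e) = βM e := by
  suffices h : (wLvl M q L hqM).toAlgHom.comp αM = βM by
    rw [← h]
    rfl
  refine algHom_ext_lvl L fun d _ hd => Subtype.ext ?_
  have hsd : swapDiv q d = d * q := if_neg fun h => hqM (h.trans hd)
  haveI : NeZero (swapDiv q d) := ⟨hsd ▸ mul_ne_zero (NeZero.ne d) (NeZero.ne q)⟩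
  have hd' : d ∣ M * q := hd.trans (dvd_mul_right M q)
  have e1 : αM (lvlGenD L M d hd) = lvlGenD L (M * q) d hd' :=
    Subtype.ext ((coe_heckeAlphaBar M q _).trans
      ((coe_lvlGenD L M d hd).trans (coe_lvlGenD L (M * q) d hd').symm))
  rw [AlgHom.comp_apply, e1, coe_heckeBetaBar, coe_lvlGenD, qExpand_qExpand]
  refine (coe_wLvl_gen M q L hqM d hd').trans ?_
  exact qExpand_congr (hsd.trans (mul_comm d q)) _

theorem wLvl_beta (e : levelField M L) : wLvl M q L hqM (βM e) = αM e := by
  rw [← wLvl_alpha M q hqM e, wLvl_wLvl]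

theorem cZero_alpha {e : levelField M L} {r : Fk} (h : (redLvl M A π hπs hπ0).Red e r) :
    (CZ).Red (αM e) (qV M q k r) := by
  rw [cZero_red, wLvl_alpha M q hqM e]
  exact cInf_beta M q A π hπs hπ0 hqM harch h

theorem cZero_beta {e : levelField M L} {r : Fk} (h : (redLvl M A π hπs hπ0).Red e r) :
    (CZ).Red (βM e) r := by
  rw [cZero_red, wLvl_beta M q hqM e]
  exact cInf_alpha M q A π hπs hπ0 hqM harch h

theorem cInf_surj (r : Fk) : ∃ f, (CI).Red f r := by
  obtain ⟨x, hx⟩ := r
  induction hx using IntermediateField.adjoin_induction with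
  | mem y hy =>
    obtain ⟨d, hne, hd, rfl⟩ := hy
    haveI := hne
    exact ⟨_, cInf_alpha M q A π hπs hπ0 hqM harch (redLvl_gen M A π hπs hπ0 d hd)⟩
  | algebraMap c =>
    obtain ⟨a, rfl⟩ := hπs c
    exact ⟨_, ConstRed.red_const (C := CI) a⟩
  | add y z hy hz h1 h2 =>
    obtain ⟨f, hf⟩ := h1
    obtain ⟨g, hg⟩ := h2
    exact ⟨f + g, hf.add hg⟩
  | inv y hy h1 =>
    obtain ⟨f, hf⟩ := h1
    by_cases h0 : (⟨y, hy⟩ : Fk) = 0
    · refine ⟨0, ?_⟩
      have hy0 : y = 0 := congrArg Subtype.val h0
      subst hy0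
      convert (ConstRed.red_zero (C := CI)) using 1
      exact Subtype.ext inv_zero
    · exact ⟨f⁻¹, hf.inv h0⟩
  | mul y z hy hz h1 h2 =>
    obtain ⟨f, hf⟩ := h1
    obtain ⟨g, hg⟩ := h2
    refine ⟨f * g, ?_⟩
    have e : (⟨y * z, mul_mem hy hz⟩ : Fk) = ⟨y, hy⟩ * ⟨z, hz⟩ :=
      Subtype.ext (IntermediateField.coe_mul (modularFunctionFieldFullC k M) ⟨y, hy⟩ ⟨z, hz⟩).symm
    rw [e]
    exact hf.mul hg

theorem cZero_surj (r : Fk) : ∃ f, (CZ).Red f r := by
  obtain ⟨f, hf⟩ := cInf_surj M q A π hπs hπ0 hqM harch r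
  exact ⟨wLvl M q L hqM f, by rw [cZero_red, wLvl_wLvl]; exact hf⟩

/-! ### `j` and `j(qz)` -/

variable (L) in
/-- `j`. -/
def jA : levelField (M * q) L := αM (levelJ M L)

variable (L) in
/-- `j(qz)`. -/
def jB : levelField (M * q) L := βM (levelJ M L)

theorem coe_jA : (jA M q L : LaurentSeries L) = jqModC L := by
  rw [jA, coe_heckeAlphaBar, coe_levelJ]

theorem coe_jB : (jB M q L : LaurentSeries L) = qExpand L q (jqModC L) := by
  rw [jB, coe_heckeBetaBar, coe_levelJ]

theorem jA_eq_levelJ : jA M q L = levelJ (M * q) L := Subtype.ext (coe_jA M q)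

theorem jA_ne_zero : jA M q L ≠ 0 := fun h => by
  rw [jA_eq_levelJ] at h
  exact levelJ_transcendental (M * q) L (h ▸ isAlgebraic_zero)

theorem jB_ne_zero : jB M q L ≠ 0 := fun h => by
  refine levelJ_transcendental M L ?_
  rw [(map_eq_zero βM).1 h]
  exact isAlgebraic_zero

include hqM in
theorem wLvl_jA : wLvl M q L hqM (jA M q L) = jB M q L := wLvl_alpha M q hqM _

include hqM in
theorem wLvl_jB : wLvl M q L hqM (jB M q L) = jA M q L := wLvl_beta M q hqM _

/-- The poles of `j(qz)` are bounded by those of `j`. -/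
theorem atLeast_jB (P : Place L (levelField (M * q) L)) :
    AtLeast P ((q : ℤ) * min 0 (P.ord (jA M q L))) (jB M q L) := by
  obtain ⟨c, hc, hrel⟩ := exists_modRel q L
  refine atLeast_of_bounded_relation q hq.out.two_le c hc ?_
  apply Subtype.ext
  simp only [AddMemClass.coe_add, SubmonoidClass.coe_pow, AddSubmonoidClass.coe_finsetSum,
    MulMemClass.coe_mul, coe_jB, ZeroMemClass.coe_zero]
  refine Eq.trans (congrArg _ (Finset.sum_congr rfl fun m _ => congrArg (· * _) ?_)) hrel
  rw [← coe_jA (L := L) M q]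
  exact (Polynomial.aeval_algHom_apply (levelField (M * q) L).val (jA M q L) (c m)).symm

include hqM in
/-- The poles of `j` are bounded by those of `j(qz)`. -/
theorem atLeast_jA (P : Place L (levelField (M * q) L)) :
    AtLeast P ((q : ℤ) * min 0 (P.ord (jB M q L))) (jA M q L) := by
  obtain ⟨c, hc, hrel⟩ := exists_modRel q L
  refine atLeast_of_bounded_relation q hq.out.two_le c hc ?_
  have h0 : jB M q L ^ (q + 1) +
      ∑ m ∈ Finset.range (q + 1), Polynomial.aeval (jA M q L) (c m) * jB M q L ^ m = 0 := by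
    apply Subtype.ext
    simp only [AddMemClass.coe_add, SubmonoidClass.coe_pow, AddSubmonoidClass.coe_finsetSum,
      MulMemClass.coe_mul, coe_jB, ZeroMemClass.coe_zero]
    refine Eq.trans (congrArg _ (Finset.sum_congr rfl fun m _ => congrArg (· * _) ?_)) hrel
    rw [← coe_jA (L := L) M q]
    exact (Polynomial.aeval_algHom_apply (levelField (M * q) L).val (jA M q L) (c m)).symm
  have h := congrArg (wLvl M q L hqM) h0
  simp only [map_add, map_pow, map_sum, map_mul, map_zero, ← Polynomial.aeval_algHom_apply,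
    wLvl_jA M q hqM, wLvl_jB M q hqM] at h
  exact h

theorem cInf_jA : (CI).Red (jA M q L) (jBar k M) :=
  cInf_alpha M q A π hπs hπ0 hqM harch (redLvl_levelJ M A π hπs hπ0)

theorem cInf_jB : (CI).Red (jB M q L) (jBar k M ^ q) := by
  rw [← qV_jBar M q k]
  exact cInf_beta M q A π hπs hπ0 hqM harch (redLvl_levelJ M A π hπs hπ0)

theorem cZero_jA : (CZ).Red (jA M q L) (jBar k M ^ q) := by
  rw [← qV_jBar M q k]
  exact cZero_alpha M q A π hπs hπ0 hqM harch (redLvl_levelJ M A π hπs hπ0)

theorem cZero_jB : (CZ).Red (jB M q L) (jBar k M) :=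
  cZero_beta M q A π hπs hπ0 hqM harch (redLvl_levelJ M A π hπs hπ0)

theorem jBar_sub_pow_ne : jBar k M - jBar k M ^ (q * q) ≠ 0 := fun h => by
  refine jBar_transcendental k M ⟨Polynomial.X - Polynomial.X ^ (q * q), fun h0 => ?_, by simpa⟩
  have h1 := congrArg (fun p : Polynomial k => p.coeff 1) h0
  simp only [Polynomial.coeff_sub, Polynomial.coeff_X_one, Polynomial.coeff_X_pow,
    Polynomial.coeff_zero] at h1
  rw [if_neg (by nlinarith [hq.out.two_le]), sub_zero] at h1
  exact one_ne_zero h1

/-- A function equal to `1` on the component of `∞` and divisible by `q` on that of `0`. -/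
theorem exists_sep_inf : ∃ e z : levelField (M * q) L,
    (∃ r : Fk, (CZ).Red z r) ∧ (CI).Red e 1 ∧
      e = algebraMap L (levelField (M * q) L) (q : L) * z := by
  have hqL : (q : L) ≠ 0 := by
    haveI : CharZero L := charZero_of_injective_algebraMap (algebraMap ℚ L).injective
    exact Nat.cast_ne_zero.2 hq.out.ne_zero
  set u := jB M q L - jA M q L ^ q with hu
  set Z := algebraMap L (levelField (M * q) L) (q : L)⁻¹ * u with hZ
  obtain ⟨z, hz⟩ := exists_qExpand_sub_pow q A
  have hzZ : coeffMap (A.subtype : A →+* L) z = (Z : LaurentSeries L) := by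
    have h := congrArg (coeffMap (A.subtype : A →+* L)) hz
    rw [map_sub, map_pow, coeffMap_qExpand, coeffMap_jqModC, map_mul, map_natCast] at h
    rw [hZ, MulMemClass.coe_mul, hu, AddSubgroupClass.coe_sub, SubmonoidClass.coe_pow, coe_jB,
      coe_jA, h, IntermediateField.coe_algebraMap_apply, map_inv₀, map_natCast, ← mul_assoc,
      inv_mul_cancel₀, one_mul]
    rw [← map_natCast (algebraMap L (LaurentSeries L)), _root_.map_ne_zero]
    exact hqL
  obtain ⟨rz, -, hrz⟩ := cInf_series M q A π hπs hπ0 hqM harch z hzZ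
  -- on the component of `0` the same function is `y - y ^ (q * q)`
  set r₀ := jBar k M - jBar k M ^ (q * q)
  have hu0 : (CZ).Red u r₀ := by
    have := (cZero_jB M q A π hπs hπ0 hqM harch).sub
      ((cZero_jA M q A π hπs hπ0 hqM harch).pow q)
    rwa [← pow_mul] at this
  have huI : (CI).Red u 0 := by
    have h1 := (ConstRed.red_const (C := CI) (q : A)).mul hrz
    rw [show ((CI).π (q : A)) = π (q : A) from rfl, map_natCast π, CharP.cast_eq_zero k q, map_zero,
      zero_mul] at h1
    convert h1 using 1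
    rw [show (((q : A)) : L) = (q : L) from map_natCast A.subtype q, hZ, ← mul_assoc, ← map_mul,
      mul_inv_cancel₀ hqL, map_one, one_mul]
  -- its transform
  set e := wLvl M q L hqM u with he
  have heI : (CI).Red e r₀ := cZero_red M q A π hπs hπ0 hqM harch |>.1 hu0
  have heZ : (CZ).Red e 0 := by rw [cZero_red, he, wLvl_wLvl]; exact huI
  have hs : r₀ ≠ 0 := jBar_sub_pow_ne M q
  have hsumI := heI.add huI
  rw [add_zero] at hsumI
  have hsumZ := heZ.add hu0
  rw [zero_add] at hsumZ
  refine ⟨e * (e + u)⁻¹, wLvl M q L hqM Z * (e + u)⁻¹, ⟨rz * r₀⁻¹, ?_⟩, ?_, ?_⟩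
  · refine ConstRed.Red.mul ?_ (hsumZ.inv hs)
    rw [cZero_red, wLvl_wLvl]
    exact hrz
  · have := heI.mul (hsumI.inv hs)
    rwa [mul_inv_cancel₀ hs] at this
  · rw [← mul_assoc]
    congr 1
    rw [he, hZ, map_mul, AlgEquiv.commutes, ← mul_assoc, ← map_mul, mul_inv_cancel₀ hqL, map_one,
      one_mul]

/-- A function equal to `1` on the component of `0` and divisible by `q` on that of `∞`. -/
theorem exists_sep_zero : ∃ e z : levelField (M * q) L,
    (∃ r : Fk, (CI).Red z r) ∧ (CZ).Red e 1 ∧
      e = algebraMap L (levelField (M * q) L) (q : L) * z := by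
  obtain ⟨e, z, ⟨r, hr⟩, h1, he⟩ := exists_sep_inf M q A π hπs hπ0 hqM harch
  refine ⟨wLvl M q L hqM e, wLvl M q L hqM z, ⟨r, (cZero_red M q A π hπs hπ0 hqM harch).1 hr⟩,
    ?_, by rw [he, map_mul, AlgEquiv.commutes]⟩
  rw [cZero_red, wLvl_wLvl]
  exact h1

end FA.ModField.X0
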