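import Fermat.Agent.ModField.Semistable.X0.Data
import Fermat.Agent.ModField.Semistable.Joint.Build
import Fermat.Agent.CurveRed.Spl

/-!
# The hypotheses of the glued fibre for `X₀(M q)`
-/

set_option autoImplicit false
set_option linter.style.haveILetI false
set_option linter.unusedSectionVars false
set_option synthInstance.maxHeartbeats 400000
set_option maxHeartbeats 800000

noncomputable section

namespace FA.ModField.X0

open ModularCurve AlgebraicCurve FA.Curve FA.CurveRed FA.CurveRed.Modular FA.CurveRed.ConstRed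
  IntermediateField

theorem rev_ne : ∀ i : Fin 2, i.rev ≠ i := by decide

theorem eq_rev : ∀ i j : Fin 2, j ≠ i → j = i.rev := by decide

variable (M : ℕ) [NeZero M] (q : ℕ) [hq : Fact q.Prime] [hq0 : NeZero q]
variable {L : Type} [Field L] [Algebra ℚ L] [Algebra L ℂ] [IsAlgClosed L]
variable (A : ValuationSubring L) {k : Type} [Field k] [IsAlgClosed k] [CharP k q] (π : A →+* k)
  (hπs : Function.Surjective π) (hπ0 : ∀ a : A, π a = 0 ↔ A.valuation a < 1) (hqM : ¬ q ∣ M)
  (harch : ∀ c : L, c ≠ 0 → ∃ m : ℕ, A.valuation ((q : L) ^ m) < A.valuation c)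

local notation "Fk" => modularFunctionFieldFullC k M
local notation "JJ" => joint M q A π hπs hπ0 hqM harch
local notation "yk" => jBar k M

theorem hkM : ∀ _i : Fin 2, IsFunctionField k (modularFunctionFieldFullC k M) :=
  fun _ => isFunctionField_fullC k M

include hπs hπ0 in
theorem genus_level_le (hqM : ¬ q ∣ M) :
    FA.Curve.genus L (levelField M L) ≤ FA.Curve.genus k (modularFunctionFieldFullC k M) := by
  haveI : CharZero L := charZero_of_injective_algebraMap (algebraMap ℚ L).injective
  show FA.Curve.genus L ↥(laurentBaseChange L (modularFunctionFieldFull M)) ≤ _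
  rw [laurentBaseChange_full L M]
  exact FA.CurveRed.Modular.genus_le hπs hπ0 M
    (natCast_level_ne_zero M q A π hπs hπ0 (k := k) hqM)

include hqM in
theorem exists_lift_regular {r : Fk} (hr : r ∈ regSub (K := k) (jBar k M)) :
    ∃ f ∈ regSub (K := L) (levelJ M L), (redLvl M A π hπs hπ0).Red f r :=
  (chart_redLvl M q A π hπs hπ0 hqM).full_of_genus (isFunctionField_level L M)
    (isFunctionField_fullC k M) (genus_level_le M q A π hπs hπ0 hqM) r hr

include hqM in
theorem exists_lift_pole : ∃ m₀ : ℕ, ∀ m : ℕ, m₀ ≤ m →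
    ∀ r ∈ riemannRochSpace (m • poleDiv (isFunctionField_fullC k M) (jBar k M)),
      ∃ f ∈ riemannRochSpace (m • poleDiv (isFunctionField_level L M) (levelJ M L)),
        (redLvl M A π hπs hπ0).Red f r := by
  have h := chart_redLvl M q A π hπs hπ0 hqM
  have hF := isFunctionField_level L M
  have hk := isFunctionField_fullC k M
  obtain ⟨c, hc⟩ := exists_threshold hF
  obtain ⟨c', hc'⟩ := exists_threshold hk
  refine ⟨c.toNat + c'.toNat, fun m hm => exists_lift_of_red_mem h hF hk
    (fun f r hf hr => h.red_mem_nB hF hk hf hr) ?_⟩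
  have h1 := MultiRed.le_degree_nB hF h.transX m
  have h2 := MultiRed.le_degree_nB hk h.trans m
  rw [hc _ (by omega), hc' _ (by omega)]
  simp only [map_nsmul, degree_poleDiv hF h.transX, degree_poleDiv hk h.trans, h.finrank_eq hF hk]
  have := genus_level_le M q A π hπs hπ0 hqM
  omega

theorem regular_yk {Q : Place k Fk} (h : 0 ≤ Q.ord (jBar k M ^ (q + 1))) :
    0 ≤ Q.ord yk := by
  rw [place_ord_pow] at h
  exact nonneg_of_mul_nonneg_right h (by positivity)

theorem regSub_xbX {r : Fk} {i : Fin 2} :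
    r ∈ regSub (K := k) (xbX M q k i) ↔ r ∈ regSub (K := k) (jBar k M) := by
  refine ⟨fun h P hP => h P ?_, fun h P hP => h P (regular_yk M q hP)⟩
  show 0 ≤ P.ord (jBar k M ^ (q + 1))
  rw [place_ord_pow]
  exact mul_nonneg (Int.natCast_nonneg _) hP

include hqM in
theorem side_regular {f : levelField M L} (hf : f ∈ regSub (K := L) (levelJ M L)) (i : Fin 2) :
    side M q L i f ∈ regSub (K := L) (xX M q (L := L)) := fun P hP =>
  atLeast_pullback_regular (isFunctionField_level L M) (isFunctionField_level L (M * q))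
    (side M q L i) hf P ((xX_regular M q hqM).1 hP i)

/-- The values of a reduced regular function under `qV` are taken with multiplicity. -/
theorem exists_qV_flat {w : Fk} {Q : Place k Fk} (hw : AtLeast Q 0 (qV M q k w)) :
    ∃ c : k, AtLeast Q 2 (qV M q k w - algebraMap k Fk c) := by
  haveI : CharP Fk q := charP_of_injective_algebraMap (algebraMap k Fk).injective q
  set W := fullMap M ((frobeniusEquiv k q).symm : k →+* k) w
  have hW : AtLeast Q 0 W := by
    rw [qV_eq_pow] at hw
    rcases eq_or_ne W 0 with h0 | h0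
    · exact Or.inl h0
    · rw [atLeast_iff (pow_ne_zero _ h0), place_ord_pow] at hw
      exact Or.inr (nonneg_of_mul_nonneg_right hw (by exact_mod_cast hq.out.pos))
  obtain ⟨c, hc⟩ := exists_hasValue (isFunctionField_fullC k M) hW
  refine ⟨c ^ q, ?_⟩
  rw [qV_eq_pow, map_pow, ← sub_pow_char]
  refine (atLeast_pow hc q).mono ?_
  have : (2 : ℤ) ≤ q := by exact_mod_cast hq.out.two_le
  simpa

/-- Regular functions lift. -/
theorem proj (i : Fin 2) (r : Fk) (hr : r ∈ regSub (K := k) (xbX M q k i)) :
    ∃ u ∈ regSub (K := L) (xX M q (L := L)), ∃ ub, (JJ).Red u ub ∧ ub i = r := by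
  obtain ⟨f, hf, hfr⟩ := exists_lift_regular M q A π hπs hπ0 hqM ((regSub_xbX M q).1 hr)
  exact ⟨_, side_regular M q hqM hf i, _, fun j => red_side M q A π hπs hπ0 hqM harch hfr i j,
    if_pos rfl⟩

/-- Functions supported on one component with a zero of order less than two. -/
theorem axes (i : Fin 2) (Q : Place k Fk) (hQ : 0 ≤ Q.ord (xbX M q k i)) :
    ∃ u ∈ regSub (K := L) (xX M q (L := L)), ∃ ub, (JJ).Red u ub ∧
      (∀ j, j ≠ i → ub j = 0) ∧ ¬ AtLeast Q 2 (ub i) := by
  classical
  have hk := isFunctionField_fullC k M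
  have hy := jBar_transcendental k M
  have hQy : 0 ≤ Q.ord yk := regular_yk M q hQ
  obtain ⟨c, hc⟩ := MultiRed.exists_exact hk
  obtain ⟨m, hm⟩ : ∃ m : ℕ, c + 1 ≤ (m : ℤ) := ⟨(c + 1).toNat, Int.self_le_toNat _⟩
  obtain ⟨t, ht, ht0, hord⟩ := hc (m • poleDiv hk yk - Finsupp.single Q 1)
    (by
      rw [map_sub, Divisor.degree_single, hk.deg_eq_one]
      have := MultiRed.le_degree_nB hk hy m
      omega) {Q}
  have htreg : t ∈ regSub (K := k) yk := ((mem_riemannRoch_nB hk hy).1
    (riemannRochSpace_mono (sub_le_self _ (Finsupp.single_nonneg.2 zero_le_one)) ht)).1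
  have htQ : Q.ord t = 1 := by
    rw [hord Q (by simp), Finsupp.sub_apply, MultiRed.nsmul_poleDiv_of_nonneg hk hQy,
      Finsupp.single_eq_same]
    norm_num
  obtain ⟨f, hf, hfr⟩ := exists_lift_regular M q A π hπs hπ0 hqM htreg
  have hne : i.rev ≠ i := rev_ne i
  -- the reduction of its image on the other component is regular
  have hVt : qV M q k t ∈ regSub (K := k) yk := by
    rw [← regSub_xbX M q (i := i.rev)]
    have h := (chart_x M q A π hπs hπ0 hqM harch).red_mem_regSub (isFunctionField_level L (M * q))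
      (hkM M) (side_regular M q hqM hf i)
      (fun j => red_side M q A π hπs hπ0 hqM harch hfr i j) i.rev
    rwa [if_neg hne] at h
  obtain ⟨g, hg, hgr⟩ := exists_lift_regular M q A π hπs hπ0 hqM hVt
  refine ⟨side M q L i f - side M q L i.rev g,
    sub_mem (side_regular M q hqM hf i) (side_regular M q hqM hg i.rev), _,
    fun j => (red_side M q A π hπs hπ0 hqM harch hfr i j).sub
      (red_side M q A π hπs hπ0 hqM harch hgr i.rev j), fun j hj => ?_, ?_⟩
  · have hj' : j = i.rev := eq_rev i j hj
    subst hj'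
    simp only [if_neg hj, if_pos, sub_self]
  · simp only [if_pos, if_neg (Ne.symm hne)]
    intro h2
    have hW : AtLeast Q 0 (qV M q k (qV M q k t)) := by
      have h := (chart_x M q A π hπs hπ0 hqM harch).red_mem_regSub
        (isFunctionField_level L (M * q)) (hkM M) (side_regular M q hqM hg i.rev)
        (fun j => red_side M q A π hπs hπ0 hqM harch hgr i.rev j) i
      rw [if_neg (Ne.symm hne), regSub_xbX M q] at h
      exact h Q hQy
    obtain ⟨c₀, hc₀⟩ := exists_qV_flat M q hW
    have h3 : AtLeast Q 2 (t - algebraMap k Fk c₀) := by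
      have := h2.add hc₀
      rwa [sub_add_sub_cancel] at this
    have h4 : HasValue Q t c₀ := h3.mono (by norm_num)
    have h5 : HasValue Q t 0 := hasValue_zero_iff.2 (Or.inr htQ.ge)
    rw [h4.unique h5, map_zero, sub_zero, atLeast_iff ht0, htQ] at h3
    norm_num at h3

/-- Top degree parts lift independently. -/
theorem top : ∃ m₀ : ℕ, ∀ m, m₀ ≤ m → ∀ i,
    ∀ r ∈ riemannRochSpace (m • poleDiv (hkM M i) (xbX M q k i)),
      ∃ u ∈ riemannRochSpace (m • poleDiv (isFunctionField_level L (M * q)) (xX M q (L := L))),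
        ∃ ub, (JJ).Red u ub ∧
          ub i - r ∈ riemannRochSpace ((m - 1) • poleDiv (hkM M i) (xbX M q k i)) ∧
          ∀ j, j ≠ i → ub j ∈ riemannRochSpace ((m - 1) • poleDiv (hkM M j) (xbX M q k j)) := by
  classical
  have hF := isFunctionField_level L (M * q)
  have hFM := isFunctionField_level L M
  have hk := isFunctionField_fullC k M
  have hy := jBar_transcendental k M
  have hy0 : yk ≠ 0 := x_ne_zero hk hy
  obtain ⟨ml, hml⟩ := exists_lift_pole M q A π hπs hπ0 hqM
  obtain ⟨c, hc⟩ := exists_threshold hk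
  have hq2 : 2 ≤ q := hq.out.two_le
  refine ⟨c.toNat + ml + 2 * q + 2, fun m hm i r hr => ?_⟩
  obtain ⟨τ, hτ⟩ : ∃ τ, τ = m - q := ⟨_, rfl⟩
  obtain ⟨l, hl⟩ : ∃ l, l = m + 1 := ⟨_, rfl⟩
  have hmq : (m : ℤ) = τ + q := by omega
  set B := poleDiv hk yk
  have hxb : ∀ (n : ℕ) (j : Fin 2), n • poleDiv (hkM M j) (xbX M q k j) = (n * (q + 1)) • B :=
    fun n j => by
      show n • poleDiv hk (yk ^ (q + 1)) = _
      rw [poleDiv_pow hk, smul_smul]
  rw [hxb] at hr
  -- split off the zeros of `y`
  set a := q * l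
  set Z := divOf hk yk + B
  have hB : ∀ v : Place k Fk, B v = max 0 (-v.ord yk) := poleDiv_apply hk yk
  have hZ : ∀ v : Place k Fk, Z v = max 0 (v.ord yk) := fun v => by
    rw [Finsupp.add_apply, divOf_apply, hB]; omega
  have hmem : r * (yk ^ a)⁻¹ ∈ riemannRochSpace (τ • B + a • Z) := by
    rw [FA.Curve.mem_riemannRochSpace]
    intro v
    refine ((FA.Curve.mem_riemannRochSpace.1 hr v).mul (atLeast_ord (v := v) ((yk ^ a)⁻¹))).mono ?_
    rw [v.ord_inv, place_ord_pow, Finsupp.add_apply]
    simp only [Finsupp.smul_apply, nsmul_eq_mul, hB, hZ, Nat.cast_mul, Nat.cast_add, Nat.cast_one,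
      a, hl]
    rcases le_total 0 (v.ord yk) with h0 | h0
    · rw [max_eq_left (by omega), max_eq_right h0]
      simp
    · rw [max_eq_right (by omega), max_eq_left h0, hmq]
      ring_nf
      exact le_rfl
  have hle : τ - (q + 1) ≤ τ := Nat.sub_le _ _
  have hsup := ConstRed.sup_riemannRochSpace hk hc (D₁ := τ • B)
    (D₂ := (τ - (q + 1)) • B + a • Z) (U := τ • B + a • Z) (I := (τ - (q + 1)) • B)
    (fun v => by
      simp only [Finsupp.add_apply, Finsupp.smul_apply, nsmul_eq_mul, hB, hZ]
      rcases le_total 0 (v.ord yk) with h0 | h0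
      · rw [max_eq_left (show -v.ord yk ≤ 0 by omega), max_eq_right h0]
        simp only [mul_zero, zero_add]
        rw [max_eq_right (mul_nonneg (Int.natCast_nonneg _) h0)]
      · rw [max_eq_left h0]
        simp only [mul_zero, add_zero]
        rw [max_eq_left (mul_le_mul_of_nonneg_right (by exact_mod_cast hle) (le_max_left _ _))])
    (fun v => by
      simp only [Finsupp.add_apply, Finsupp.smul_apply, nsmul_eq_mul, hB, hZ]
      rcases le_total 0 (v.ord yk) with h0 | h0
      · rw [max_eq_left (show -v.ord yk ≤ 0 by omega), max_eq_right h0]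
        simp only [mul_zero, zero_add]
        rw [min_eq_left (mul_nonneg (Int.natCast_nonneg _) h0)]
      · rw [max_eq_left h0]
        simp only [mul_zero, add_zero]
        rw [min_eq_right (mul_le_mul_of_nonneg_right (by exact_mod_cast hle) (le_max_left _ _))])
    (le_trans (by omega) (MultiRed.le_degree_nB hk hy (τ - (q + 1)))) hmem
  obtain ⟨t, ht, z, hz, htz⟩ := Submodule.mem_sup.1 hsup
  obtain ⟨f, hf, hfr⟩ := hml τ (by omega) t ht
  have hred : (JJ).Red (side M q L i f * sideJ M q L i.rev ^ l)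
      (fun j => (if j = i then t else qV M q k t) * (if j = i.rev then yk else yk ^ q) ^ l) :=
    fun j => (red_side M q A π hπs hπ0 hqM harch hfr i j).mul
      ((red_sideJ M q A π hπs hπ0 hqM harch i.rev j).pow l)
  have hne : i.rev ≠ i := rev_ne i
  refine ⟨_, ?_, _, hred, ?_, fun j hj => ?_⟩
  · rw [FA.Curve.mem_riemannRochSpace]
    intro P
    refine ((atLeast_pullback hFM hF (side M q L i) hf P).mul
      (atLeast_pow (atLeast_ord (v := P) (sideJ M q L i.rev)) l)).mono ?_
    rw [Finsupp.smul_apply, poleDiv_apply, nsmul_eq_mul, xX_eq M q i,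
      P.ord_mul (sideJ_ne_zero M q i) (sideJ_ne_zero M q i.rev)]
    show _ ≤ (τ : ℤ) * min 0 (P.ord (sideJ M q L i)) + _
    by_cases hreg : 0 ≤ P.ord (sideJ M q L i)
    · have := ord_sideJ_nonneg M q hqM i hreg i.rev
      rw [min_eq_left hreg, max_eq_left (by omega)]
      simp only [mul_zero, neg_zero, zero_add]
      exact mul_nonneg (Int.natCast_nonneg _) this
    · have hlt : P.ord (sideJ M q L i.rev) < 0 := by
        by_contra h
        exact hreg (ord_sideJ_nonneg M q hqM i.rev (le_of_not_gt h) i)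
      have hb := (atLeast_iff (sideJ_ne_zero M q i.rev)).1 (atLeast_sideJ M q hqM i.rev i P)
      rw [min_eq_right (le_of_not_ge hreg)] at hb
      rw [min_eq_right (le_of_not_ge hreg), max_eq_right (by omega), hl, hmq]
      push_cast
      rw [hmq]
      linarith
  · simp only [if_pos, if_neg (Ne.symm hne)]
    rw [hxb]
    have e : t * (yk ^ q) ^ l - r = -(z * yk ^ a) := by
      rw [← pow_mul, show r = (r * (yk ^ a)⁻¹) * yk ^ a by
        rw [inv_mul_cancel_right₀ (pow_ne_zero _ hy0)], ← htz]
      ring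
    rw [e]
    refine neg_mem (FA.Curve.mem_riemannRochSpace.2 fun v => ?_)
    refine ((FA.Curve.mem_riemannRochSpace.1 hz v).mul (atLeast_ord (v := v) (yk ^ a))).mono ?_
    rw [place_ord_pow]
    simp only [Finsupp.add_apply, Finsupp.smul_apply, nsmul_eq_mul, hB, hZ]
    rcases le_total 0 (v.ord yk) with h0 | h0
    · rw [max_eq_left (show -v.ord yk ≤ 0 by omega), max_eq_right h0]
      simp
    · rw [max_eq_left h0, max_eq_right (by omega : (0 : ℤ) ≤ -v.ord yk)]
      simp only [a, hl]
      push_cast [Nat.cast_sub (show q + 1 ≤ τ by omega), Nat.cast_sub (show 1 ≤ m by omega)]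
      rw [hmq]
      ring_nf
      exact le_rfl
  · have hj' : j = i.rev := eq_rev i j hj
    subst hj'
    simp only [if_neg hj, if_pos]
    rw [hxb]
    have hVt := (chart_side M q A π hπs hπ0 hqM harch i).red_mem_nB hF (hkM M) (m := τ)
      (u := side M q L i f) (FA.Curve.mem_riemannRochSpace.2 fun P => by
        refine (atLeast_pullback hFM hF (side M q L i) hf P).mono (le_of_eq ?_)
        rw [Finsupp.smul_apply, poleDiv_apply, nsmul_eq_mul]
        show -((τ : ℤ) * max 0 (-P.ord (sideJ M q L i))) = (τ : ℤ) * min 0 (P.ord (sideJ M q L i))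
        rw [← mul_neg]
        congr 1
        omega)
      (fun j' => red_side M q A π hπs hπ0 hqM harch hfr i j') i.rev
    rw [if_neg hj] at hVt
    rw [if_neg hne, poleDiv_pow hk, smul_smul] at hVt
    refine FA.Curve.mem_riemannRochSpace.2 fun v => ?_
    refine ((FA.Curve.mem_riemannRochSpace.1 hVt v).mul
      (atLeast_pow (atLeast_ord (v := v) yk) l)).mono ?_
    rw [Finsupp.smul_apply, Finsupp.smul_apply, nsmul_eq_mul, nsmul_eq_mul, hB]
    rcases le_total 0 (v.ord yk) with h0 | h0
    · rw [max_eq_left (show -v.ord yk ≤ 0 by omega)]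
      simp only [mul_zero, neg_zero, zero_add]
      exact mul_nonneg (Int.natCast_nonneg _) h0
    · rw [max_eq_right (by omega : (0 : ℤ) ≤ -v.ord yk), hl]
      push_cast [Nat.cast_sub (show 1 ≤ m by omega)]
      rw [hmq]
      have h2 : (q : ℤ) + 2 ≤ q * q := by
        have : (2 : ℤ) ≤ q := by exact_mod_cast hq2
        nlinarith
      nlinarith [mul_nonneg (sub_nonneg.2 h2) (neg_nonneg.2 h0)]

/-- The hypotheses of the glued fibre. -/
theorem fibreHyp : FibreHyp (JJ) (isFunctionField_level L (M * q)) (hkM M)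
    (xX M q (L := L)) (xbX M q k) where
  chart := chart_x M q A π hπs hπ0 hqM harch
  proj := proj M q A π hπs hπ0 hqM harch
  axes := axes M q A π hπs hπ0 hqM harch
  top := top M q A π hπs hπ0 hqM harch

end FA.ModField.X0
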