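import Fermat.Agent.ModField.Semistable.X0.Fibre
import Fermat.Agent.ModField.Semistable.Joint.Symm

/-!
# The Galois action on the special fibre of `X₀(M q)` at `q`
-/

set_option autoImplicit false
set_option linter.style.haveILetI false
set_option linter.unusedSectionVars false
set_option synthInstance.maxHeartbeats 400000
set_option maxHeartbeats 800000

noncomputable section

namespace FA.ModField.X0

open ModularCurve AlgebraicCurve FA.Curve FA.CurveRed FA.CurveRed.Modular FA.CurveRed.ConstRed

section Down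

variable (M : ℕ) [NeZero M] {k : Type} [Field k]

theorem fullMap_comp (φ ψ : k →+* k) (x : modularFunctionFieldFullC k M) :
    fullMap M φ (fullMap M ψ x) = fullMap M (φ.comp ψ) x :=
  Subtype.ext (by rw [coe_fullMap, coe_fullMap, coe_fullMap, coeffMap_coeffMap])

/-- An automorphism of constants acting on the component. -/
def galFull (φ : k ≃+* k) : SemilinearAut k (modularFunctionFieldFullC k M) :=
  ⟨(RingEquiv.ofRingHom (fullMap M φ.toRingHom) (fullMap M φ.symm.toRingHom)
      (RingHom.ext fun x => by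
        rw [RingHom.comp_apply, RingHom.id_apply, fullMap_comp,
          show φ.toRingHom.comp φ.symm.toRingHom = RingHom.id k from
            RingHom.ext fun a => φ.apply_symm_apply a, fullMap_id])
      (RingHom.ext fun x => by
        rw [RingHom.comp_apply, RingHom.id_apply, fullMap_comp,
          show φ.symm.toRingHom.comp φ.toRingHom = RingHom.id k from
            RingHom.ext fun a => φ.symm_apply_apply a, fullMap_id]), φ),
    fun a => Subtype.ext (by
      show coeffMap φ.toRingHom (algebraMap k (LaurentSeries k) a) =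
        algebraMap k (LaurentSeries k) (φ a)
      rw [algebraMap_laurentSeries_eq_single, algebraMap_laurentSeries_eq_single, coeffMap_single]
      rfl)⟩

theorem galFull_smul (φ : k ≃+* k) (x : modularFunctionFieldFullC k M) :
    galFull M φ • x = fullMap M φ.toRingHom x := rfl

theorem galFull_inv (φ : k ≃+* k) : (galFull M φ)⁻¹ = galFull M φ.symm :=
  Subtype.ext (Prod.ext (RingEquiv.ext fun _ => rfl) rfl)

theorem galFull_jBar (φ : k ≃+* k) : galFull M φ • jBar k M = jBar k M := by
  refine Subtype.ext ?_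
  rw [galFull_smul, coe_fullMap]
  exact coeffMap_jqModC φ.toRingHom

end Down

section Symm

variable {L : Type} [Field L] [Algebra ℚ L] [Algebra L ℂ] [IsAlgClosed L]
variable {A : ValuationSubring L} {k : Type} [Field k] [IsAlgClosed k] {π : A →+* k}

/-- The inverse induces the inverse. -/
theorem inducesOn_symm (hπ0 : ∀ a : A, π a = 0 ↔ A.valuation a < 1) {σ : L ≃ₐ[ℚ] L}
    {φ : k ≃+* k} (h : InducesOn L π σ φ.toRingHom) : InducesOn L π σ.symm φ.symm.toRingHom := by
  intro a
  have hcA : σ.symm (a : L) ∈ A := by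
    by_contra hcA
    have hci : (σ.symm (a : L))⁻¹ ∈ A := (A.mem_or_inv_mem _).resolve_left hcA
    have hπ : π ⟨_, hci⟩ = 0 := by
      rw [hπ0]
      show A.valuation (σ.symm (a : L))⁻¹ < 1
      rw [map_inv₀]
      exact inv_lt_one_of_one_lt₀
        (lt_of_not_ge fun h' => hcA ((A.valuation_le_one_iff _).1 h'))
    obtain ⟨b, hb, hbπ⟩ := h ⟨_, hci⟩
    rw [hπ, map_zero, hπ0, hb] at hbπ
    change A.valuation (σ (σ.symm (a : L))⁻¹) < 1 at hbπ
    rw [map_inv₀, AlgEquiv.apply_symm_apply, map_inv₀] at hbπ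
    have h2 : A.valuation (a : L) ≤ 1 := (A.valuation_le_one_iff _).2 a.2
    rcases eq_or_ne (a : L) 0 with h0 | h0
    · exact hcA (by rw [h0, map_zero]; exact zero_mem A)
    · exact absurd hbπ (not_lt.2 ((one_le_inv₀ (zero_lt_iff.2
        ((Valuation.ne_zero_iff _).2 h0))).2 h2))
  refine ⟨⟨_, hcA⟩, rfl, ?_⟩
  obtain ⟨b, hb, hbπ⟩ := h ⟨_, hcA⟩
  obtain rfl : b = a := Subtype.ext (hb.trans (σ.apply_symm_apply _))
  show π ⟨_, hcA⟩ = φ.symm (π b)
  rw [hbπ]
  exact (φ.symm_apply_apply _).symm

end Symm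

variable (M : ℕ) [NeZero M] (q : ℕ) [hq : Fact q.Prime] [hq0 : NeZero q]
variable {L : Type} [Field L] [Algebra ℚ L] [Algebra L ℂ] [IsAlgClosed L]
variable (A : ValuationSubring L) {k : Type} [Field k] [IsAlgClosed k] [CharP k q] (π : A →+* k)
  (hπs : Function.Surjective π) (hπ0 : ∀ a : A, π a = 0 ↔ A.valuation a < 1)
  (hqM : ¬ q ∣ M)
  (harch : ∀ c : L, c ≠ 0 → ∃ m : ℕ, A.valuation ((q : L) ^ m) < A.valuation c)

local notation "JJ" => joint M q A π hπs hπ0 hqM harch

theorem galAut_sideJ (σ : L ≃ₐ[ℚ] L) :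
    ∀ i, galAut (M * q) L σ • sideJ M q L i = sideJ M q L i := by
  refine Fin.forall_fin_two.2 ⟨Subtype.ext ?_, Subtype.ext ?_⟩
  · show coeffMap (σ : L →+* L) (sideJ M q L 0 : LaurentSeries L) = _
    rw [sideJ_zero, coe_jA]
    exact coeffMap_jqModC _
  · show coeffMap (σ : L →+* L) (sideJ M q L 1 : LaurentSeries L) = _
    rw [sideJ_one, coe_jB, coeffMap_qExpand, coeffMap_jqModC]

theorem galAut_xX (σ : L ≃ₐ[ℚ] L) : galAut (M * q) L σ • xX M q (L := L) = xX M q := by
  rw [xX, smul_mul', galAut_sideJ, galAut_sideJ]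

theorem galFull_xbX (φ : k ≃+* k) (i : Fin 2) :
    galFull M φ • xbX M q k i = xbX M q k i := by
  rw [xbX, smul_pow', galFull_jBar]

/-- An element of the decomposition group acts on both components by its residual action. -/
theorem induced {σ : L ≃ₐ[ℚ] L} {φ : k ≃+* k} (h : InducesOn L π σ φ.toRingHom) :
    Induced (JJ) (xX M q (L := L)) (galAut (M * q) L σ) (fun _ => galFull M φ) φ where
  fix := galAut_xX M q σ
  twine := Fin.forall_fin_two.2
    ⟨fun f r hr => intertwines_cInf M q A π hπs hπ0 hqM harch h f r hr,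
      fun f r hr => intertwines_cZero M q A π hπs hπ0 hqM harch h f r hr⟩
  base _ _ := rfl
  int a := h a

/-- A power of a Frobenius element fixes all branches. -/
theorem exists_frob_fix {σ : L ≃ₐ[ℚ] L} (h : InducesOn L π σ (frobenius k q)) :
    ∃ m : ℕ, 0 < m ∧
      Induced (JJ) (xX M q (L := L)) (galAut (M * q) L (σ ^ m))
        ((fun _ : Fin 2 => galFull M (frobeniusEquiv k q)) ^ m) (frobeniusEquiv k q ^ m) ∧
      (∀ b : Σ _i : Fin 2, Place k (modularFunctionFieldFullC k M),
        (JJ).IsBranch (xX M q) (xbX M q k) b →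
          (galFull M (frobeniusEquiv k q)) ^ m • b.2 = b.2) ∧
      ∀ a : k, (frobeniusEquiv k q ^ m) a = a ^ q ^ m := by
  have h1 : InducesOn L π σ (frobeniusEquiv k q).toRingHom := fun a => by
    obtain ⟨b, hb, hbπ⟩ := h a
    exact ⟨b, hb, hbπ⟩
  have hinv : Induced (JJ) (xX M q (L := L)) (galAut (M * q) L σ.symm)
      (fun _ => (galFull M (frobeniusEquiv k q))⁻¹) (frobeniusEquiv k q).symm := by
    simp only [galFull_inv]
    exact induced M q A π hπs hπ0 hqM harch (inducesOn_symm hπ0 h1)
  obtain ⟨m, hm, hfix⟩ := (fibreHyp M q A π hπs hπ0 hqM harch).exists_pow_fix hinv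
    fun i => galFull_xbX M q _ i
  refine ⟨m, hm, ?_, hfix, fun a => ?_⟩
  · rw [show galAut (M * q) L (σ ^ m) = galAut (M * q) L σ ^ m from map_pow _ _ _]
    exact (induced M q A π hπs hπ0 hqM harch h1).pow m
  · clear hm hfix
    induction m with
    | zero => rw [pow_zero, pow_zero, pow_one]; rfl
    | succ m ih =>
      rw [pow_succ']
      show frobeniusEquiv k q ((frobeniusEquiv k q ^ m) a) = _
      rw [ih, frobeniusEquiv_apply, frobenius_def, ← pow_mul, pow_succ]

end FA.ModField.X0
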