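import Fermat.Agent.ModField.Semistable.X0.Connected
import Fermat.Agent.ModField.Semistable.X0.Sym
import Fermat.Agent.ModField.Semistable.FibreAt

/-!
# The special fibre of `X₀(M q)` at `q` with its symmetries
-/

set_option autoImplicit false
set_option linter.style.haveILetI false
set_option linter.unusedSectionVars false
set_option synthInstance.maxHeartbeats 400000
set_option maxHeartbeats 800000

noncomputable section

namespace FA.ModField

open ModularCurve AlgebraicCurve FA.Curve FA.CurveRed X0

variable (M : ℕ) [NeZero M] (q : ℕ) [hq : Fact q.Prime] [hq0 : NeZero q]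
variable {L : Type} [Field L] [Algebra ℚ L] [Algebra L ℂ] [IsAlgClosed L]
variable (A : ValuationSubring L) {k : Type} [Field k] [IsAlgClosed k] [CharP k q] (π : A →+* k)
  (hπs : Function.Surjective π) (hπ0 : ∀ a : A, π a = 0 ↔ A.valuation a < 1) (hqM : ¬ q ∣ M)
  (harch : ∀ c : L, c ≠ 0 → ∃ m : ℕ, A.valuation ((q : L) ^ m) < A.valuation c)

/-- The special fibre of `X₀(M q)` at `q`, built on `fibreHyp`. -/
def fibreData : FibreData M q A π hπs hπ0 hqM harch where
  β := (fibreHyp M q A π hπs hπ0 hqM harch).Br
  σ := (fibreHyp M q A π hπs hπ0 hqM harch).Sg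
  fintypeβ := inferInstance
  fintypeσ := inferInstance
  X := (fibreHyp M q A π hπs hπ0 hqM harch).semiFibre (X0.connected M q A π hπs hπ0 hqM harch)
  C_inf := rfl
  C_zero := rfl
  symm_inertia s hs := by
    have hconn := X0.connected M q A π hπs hπ0 hqM harch
    have hs' : InducesOn L π s (RingEquiv.refl k).toRingHom := hs
    have h := induced M q A π hπs hπ0 hqM harch hs'
    have hfix : ∀ b : Σ _i : Fin 2, Place k (modularFunctionFieldFullC k M),
        (joint M q A π hπs hπ0 hqM harch).IsBranch (xX M q) (xbX M q k) b →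
          galFull M (RingEquiv.refl k) • b.2 = b.2 := fun b _ => by
      rw [show galFull M (RingEquiv.refl k) = 1 from
        Subtype.ext (Prod.ext (RingEquiv.ext fun z => fullMap_id M z) rfl), one_smul]
    refine ⟨(fibreHyp M q A π hπs hπ0 hqM harch).symm hconn h hfix, rfl, rfl, fun i => ?_, rfl⟩
    exact RingHom.ext fun z => fullMap_id M z
  symm_frob s hs := by
    have hconn := X0.connected M q A π hπs hπ0 hqM harch
    obtain ⟨m, hm, h, hfix, hpow⟩ := exists_frob_fix M q A π hπs hπ0 hqM harch hs
    exact ⟨m, hm, (fibreHyp M q A π hπs hπ0 hqM harch).symm hconn h (fun b hb => hfix b hb), rfl,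
      hpow, rfl⟩

/-- The special fibre of `X₀(M q)` at `q`. -/
theorem nonempty_fibreData : Nonempty (FibreData M q A π hπs hπ0 hqM harch) :=
  ⟨fibreData M q A π hπs hπ0 hqM harch⟩

end FA.ModField
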