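import Fermat.Agent.ModField.Semistable.X0.Fibre
import Fermat.Agent.Curve.Along

/-!
# The special fibre of `X₀(M q)` at `q` is connected

An idempotent of the glued ring at level `M q` has as norm an idempotent at level `q`, where the
two components are rational curves and the genus count forces a crossing.
-/

set_option autoImplicit false
set_option linter.style.haveILetI false
set_option linter.unusedSectionVars false
set_option synthInstance.maxHeartbeats 400000
set_option maxHeartbeats 800000

noncomputable section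

namespace FA.ModField.X0

open ModularCurve AlgebraicCurve FA.Curve FA.CurveRed FA.CurveRed.Modular FA.CurveRed.ConstRed
  IntermediateField

/-- A function field generated by one element has genus zero. -/
theorem genus_eq_zero_of_finrank_one {K F : Type*} [Field K] [IsAlgClosed K] [Field F]
    [Algebra K F] (hF : IsFunctionField K F) {x : F} (hx : Transcendental K x)
    (h1 : Module.finrank K⟮x⟯ F = 1) : FA.Curve.genus K F = 0 := by
  classical
  obtain ⟨c, hc⟩ := exists_threshold hF
  set m := c.toNat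
  have hdeg : Divisor.degree (m • poleDiv hF x) = (m : ℤ) := by
    rw [map_nsmul, degree_poleDiv hF hx, h1]; simp
  have hli : LinearIndependent K fun i : Fin (m + 1) => x ^ (i : ℕ) := by
    rw [Fintype.linearIndependent_iff]
    intro g hg j
    have h2 : Polynomial.aeval x (∑ i : Fin (m + 1), Polynomial.monomial (i : ℕ) (g i)) = 0 := by
      simpa [Polynomial.aeval_monomial, Algebra.smul_def] using hg
    have h3 := congrArg (fun p : Polynomial K => p.coeff (j : ℕ)) (transcendental_iff.1 hx _ h2)
    simpa [Polynomial.finsetSum_coeff, Polynomial.coeff_monomial, Fin.val_inj] using h3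
  haveI := finite_riemannRochSpace hF (m • poleDiv hF x)
  have hle : Fintype.card (Fin (m + 1)) ≤
      Module.finrank K (riemannRochSpace (m • poleDiv hF x)) :=
    FA.Curve.card_le_finrank hli fun i => by
      refine riemannRochSpace_mono ?_ (pow_mem_nB hF hx (i : ℕ))
      exact nsmul_le_nsmul_left (poleDiv_nonneg hF x) (Nat.lt_succ_iff.1 i.2)
  rw [Fintype.card_fin] at hle
  have h4 := hc (m • poleDiv hF x) (by rw [hdeg]; exact Int.self_le_toNat c)
  rw [hdeg, ell] at h4
  omega

variable (M : ℕ) [NeZero M] (q : ℕ) [hq : Fact q.Prime] [hq0 : NeZero q]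

section Down

variable (k : Type) [Field k]

theorem fullC_one_le : modularFunctionFieldFullC k 1 ≤ modularFunctionFieldFullC k M := by
  rw [modularFunctionFieldFullC, IntermediateField.adjoin_le_iff]
  rintro _ ⟨d, hne, hd, rfl⟩
  haveI := hne
  exact jqModCd_mem_full k M (hd.trans (one_dvd M))

/-- The inclusion downstairs. -/
def downIncl : modularFunctionFieldFullC k 1 →ₐ[k] modularFunctionFieldFullC k M :=
  IntermediateField.inclusion (fullC_one_le M k)

theorem coe_downIncl (x : modularFunctionFieldFullC k 1) :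
    (downIncl M k x : LaurentSeries k) = x :=
  IntermediateField.coe_inclusion _ x

theorem downIncl_jBar : downIncl M k (jBar k 1) = jBar k M :=
  Subtype.ext (coe_downIncl M k (jBar k 1))

theorem finrank_down_one :
    Module.finrank k⟮jBar k 1⟯ (modularFunctionFieldFullC k 1) = 1 := by
  have h : k⟮jBar k 1⟯ = ⊤ := by
    refine IntermediateField.map_injective (modularFunctionFieldFullC k 1).val ?_
    rw [IntermediateField.adjoin_map, ← AlgHom.fieldRange_eq_map, fieldRange_val, Set.image_singleton]
    refine le_antisymm (adjoin_le_iff.2 (Set.singleton_subset_iff.2 (jBar k 1).2)) ?_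
    refine adjoin_le_iff.2 ?_
    rintro _ ⟨d, hne, hd, rfl⟩
    haveI := hne
    obtain rfl : d = 1 := Nat.dvd_one.1 hd
    rw [qExpand_one_apply]
    exact mem_adjoin_simple_self k _
  rw [h, IntermediateField.finrank_top]

end Down

variable {L : Type} [Field L] [Algebra ℚ L] [Algebra L ℂ] [IsAlgClosed L]
variable (A : ValuationSubring L) {k : Type} [Field k] [IsAlgClosed k] [CharP k q] (π : A →+* k)
  (hπs : Function.Surjective π) (hπ0 : ∀ a : A, π a = 0 ↔ A.valuation a < 1) (hqM : ¬ q ∣ M)
  (harch : ∀ c : L, c ≠ 0 → ∃ m : ℕ, A.valuation ((q : L) ^ m) < A.valuation c)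

include hq in
theorem not_dvd_one : ¬ q ∣ 1 := fun h => hq.out.ne_one (Nat.dvd_one.1 h)

local notation "Fk" => modularFunctionFieldFullC k M
local notation "Ek" => modularFunctionFieldFullC k 1
local notation "JJ" => joint M q A π hπs hπ0 hqM harch
local notation "J₁" => joint 1 q A π hπs hπ0 (not_dvd_one q) harch

variable (L) in
theorem level_one_le : levelField (1 * q) L ≤ levelField (M * q) L := by
  show laurentBaseChange L (modularFunctionFieldFull (1 * q)) ≤
    laurentBaseChange L (modularFunctionFieldFull (M * q))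
  rw [laurentBaseChange_full L (1 * q), laurentBaseChange_full L (M * q),
    modularFunctionFieldFullC, IntermediateField.adjoin_le_iff]
  rintro _ ⟨d, hne, hd, rfl⟩
  haveI := hne
  exact jqModCd_mem_full L (M * q) (hd.trans (mul_dvd_mul_right (one_dvd M) q))

variable (L) in
/-- The inclusion of level `q` in level `M q`. -/
def upIncl : levelField (1 * q) L →ₐ[L] levelField (M * q) L :=
  IntermediateField.inclusion (level_one_le M q L)

theorem coe_upIncl (f : levelField (1 * q) L) :
    (upIncl M q L f : LaurentSeries L) = f :=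
  IntermediateField.coe_inclusion _ f

theorem upIncl_sideJ : ∀ i, upIncl M q L (sideJ 1 q L i) = sideJ M q L i :=
  Fin.forall_fin_two.2 ⟨Subtype.ext (by rw [coe_upIncl, sideJ_zero, sideJ_zero, coe_jA, coe_jA]),
    Subtype.ext (by rw [coe_upIncl, sideJ_one, sideJ_one, coe_jB, coe_jB])⟩

include hqM in
theorem wLvl_upIncl (f : levelField (1 * q) L) :
    wLvl M q L hqM (upIncl M q L f) = upIncl M q L (wLvl 1 q L (not_dvd_one q) f) := by
  suffices h : (wLvl M q L hqM).toAlgHom.comp (upIncl M q L) =
      (upIncl M q L).comp (wLvl 1 q L (not_dvd_one q)).toAlgHom from congrArg (fun g => g f) h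
  refine algHom_ext_lvl L fun d _ hd => Subtype.ext ?_
  haveI : NeZero (swapDiv q d) :=
    ⟨(Nat.pos_of_dvd_of_pos (swapDiv_dvd 1 q hd) (NeZero.pos _)).ne'⟩
  have hd' : d ∣ M * q := hd.trans (mul_dvd_mul_right (one_dvd M) q)
  have e : upIncl M q L (lvlGenD L (1 * q) d hd) = lvlGenD L (M * q) d hd' :=
    Subtype.ext ((coe_upIncl M q _).trans
      ((coe_lvlGenD L (1 * q) d hd).trans (coe_lvlGenD L (M * q) d hd').symm))
  rw [AlgHom.comp_apply, AlgHom.comp_apply, e, coe_upIncl]
  exact (coe_wLvl_gen M q L hqM d hd').trans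
    (coe_wLvl_gen 1 q L (not_dvd_one q) d hd).symm

theorem cInf_upIncl {f : levelField (1 * q) L} {r : Ek}
    (h : (cInf 1 q A π hπs hπ0 (not_dvd_one q) harch).Red f r) :
    (cInf M q A π hπs hπ0 hqM harch).Red (upIncl M q L f) (downIncl M k r) := by
  rw [cInf_red] at h ⊢
  obtain ⟨Y, Y', hY, hY', hne, hf, hr⟩ := h
  exact ⟨Y, Y', level_one_le M q L hY, level_one_le M q L hY', hne,
    by rw [coe_upIncl]; exact hf, by rw [coe_downIncl]; exact hr⟩

theorem red_upIncl {f : levelField (1 * q) L} {r : Ek} : ∀ i : Fin 2, ((J₁).C i).Red f r →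
    ((JJ).C i).Red (upIncl M q L f) (downIncl M k r) := by
  refine Fin.forall_fin_two.2 ⟨cInf_upIncl M q A π hπs hπ0 hqM harch, fun h => ?_⟩
  have h' := (cZero_red 1 q A π hπs hπ0 (not_dvd_one q) harch).1 h
  refine (cZero_red M q A π hπs hπ0 hqM harch).2 ?_
  rw [wLvl_upIncl M q hqM]
  exact cInf_upIncl M q A π hπs hπ0 hqM harch h'

theorem joint_surj : ∀ (i : Fin 2) (r : Fk), ∃ f, ((JJ).C i).Red f r :=
  Fin.forall_fin_two.2
    ⟨cInf_surj M q A π hπs hπ0 hqM harch, cZero_surj M q A π hπs hπ0 hqM harch⟩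

/-- A split at level `M q` gives one at level `q`. -/
theorem split_descends {e : levelField (M * q) L}
    (he : e ∈ regSub (K := L) (xX M q (L := L))) {ub : Fin 2 → Fk} (hub : (JJ).Red e ub)
    (h0 : ∀ i, ub i = if i = 0 then 1 else 0) :
    ∃ e₁ ∈ regSub (K := L) (xX 1 q (L := L)), ∀ i, ((J₁).C i).Red e₁ (if i = 0 then 1 else 0) := by
  classical
  letI := algebraAlong (upIncl M q L)
  haveI := isScalarTower_along (upIncl M q L)
  have hF := isFunctionField_level L (M * q)
  have hE := isFunctionField_level L (1 * q)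
  haveI := hasPrincipalDivisors hF
  haveI := hasPrincipalDivisors hE
  haveI : FiniteDimensional (levelField (1 * q) L) (levelField (M * q) L) :=
    finiteAlong hE hF (upIncl M q L)
  haveI := isIntegral_along (upIncl M q L) (isIntegral_toRingHom hE hF (upIncl M q L))
  letI := algebraAlong (downIncl M k)
  haveI := isScalarTower_along (downIncl M k)
  haveI : FiniteDimensional Ek Fk :=
    finiteAlong (isFunctionField_fullC k 1) (isFunctionField_fullC k M) (downIncl M k)
  -- degrees
  have hup : Module.finrank (levelField (1 * q) L) (levelField (M * q) L) = dedekindPsi M := by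
    have h := finrank_adjoin_algebraMap (K := L) (F' := levelField (M * q) L) (sideJ 1 q L 0)
    rw [show algebraMap (levelField (1 * q) L) (levelField (M * q) L) (sideJ 1 q L 0) =
      sideJ M q L 0 from upIncl_sideJ M q 0, finrank_sideJ M q hqM,
      finrank_sideJ 1 q (not_dvd_one q), dedekindPsi_one, one_mul, mul_comm] at h
    exact (Nat.eq_of_mul_eq_mul_left (Nat.succ_pos q) h).symm
  have hdown : dedekindPsi M ≤ Module.finrank Ek Fk := by
    have h := finrank_adjoin_algebraMap (K := k) (F' := Fk) (jBar k 1)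
    rw [show algebraMap Ek Fk (jBar k 1) = jBar k M from downIncl_jBar M k, finrank_down_one k,
      one_mul] at h
    rw [← h]
    exact psi_le_down M q A π hπs hπ0 hqM
  let bk := Module.finBasis Ek Fk
  refine ⟨Algebra.norm (levelField (1 * q) L) e, ?_, fun i => ?_⟩
  · intro v hv
    rcases eq_or_ne e 0 with rfl | he0
    · rw [Algebra.norm_zero]; exact atLeast_zero
    refine Or.inr ?_
    rw [← sum_fiber_ord hE hF v he0]
    refine Finset.sum_nonneg fun w hw => (atLeast_iff he0).1 (he w ?_)
    rw [xX_regular 1 q (not_dvd_one q)] at hv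
    rw [xX_regular M q hqM]
    intro j
    rw [← upIncl_sideJ M q j]
    show 0 ≤ w.ord (algebraMap (levelField (1 * q) L) (levelField (M * q) L) (sideJ 1 q L j))
    rw [w.ord_restrict, Place.mem_fiber.1 hw]
    exact mul_nonneg (Int.natCast_nonneg _) (hv j)
  · choose y hy using fun l => joint_surj M q A π hπs hπ0 hqM harch i (bk l)
    have hn : Module.finrank (levelField (1 * q) L) (levelField (M * q) L) ≤
        Fintype.card (Fin (Module.finrank Ek Fk)) := by
      rw [hup, Fintype.card_fin]; exact hdown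
    have h := ConstRed.red_norm (C₀ := (J₁).C i) (C := (JJ).C i)
      (fun f r h => red_upIncl M q A π hπs hπ0 hqM harch i h) ((J₁).scaled i) bk hy hn (hub i)
    rw [h0] at h
    have e1 : Algebra.norm Ek (if i = 0 then (1 : Fk) else 0) = if i = 0 then 1 else 0 := by
      split_ifs
      · exact map_one _
      · exact Algebra.norm_zero
    rwa [e1] at h

/-- There is a crossing. -/
theorem nonempty_br : Nonempty (fibreHyp M q A π hπs hπ0 hqM harch).Br := by
  classical
  set H := fibreHyp M q A π hπs hπ0 hqM harch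
  by_contra hemp
  rw [not_nonempty_iff] at hemp
  have hglued : (Pi.single 0 1 : Fin 2 → Fk) ∈ (JJ).glued (xX M q (L := L)) := by
    refine H.mem_glued_of_values (fun i => ?_) fun q' _ hq' => (hemp.false ⟨q', hq'⟩).elim
    rw [regSub_xbX M q]
    rcases eq_or_ne i 0 with rfl | hi
    · rw [Pi.single_eq_same]; exact one_mem _
    · rw [Pi.single_eq_of_ne hi]; exact zero_mem _
  obtain ⟨e, he, hub⟩ := hglued
  obtain ⟨e₁, he₁, hub₁⟩ := split_descends M q A π hπs hπ0 hqM harch he hub fun i => by
    split_ifs with hi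
    · subst hi; rw [Pi.single_eq_same]
    · rw [Pi.single_eq_of_ne hi]
  -- level `q`
  set H₁ := fibreHyp 1 q A π hπs hπ0 (not_dvd_one q) harch
  have hs0 : (Pi.single 0 1 : Fin 2 → Ek) ∈ (J₁).glued (xX 1 q (L := L)) := by
    refine ⟨e₁, he₁, fun i => ?_⟩
    have h := hub₁ i
    rcases eq_or_ne i 0 with rfl | hi
    · rw [if_pos rfl] at h; rw [Pi.single_eq_same]; exact h
    · rw [if_neg hi] at h; rw [Pi.single_eq_of_ne hi]; exact h
  have hs1 : (Pi.single 1 1 : Fin 2 → Ek) ∈ (J₁).glued (xX 1 q (L := L)) := by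
    have h := sub_mem ((J₁).one_mem_glued _) hs0
    have e1 : (1 : Fin 2 → Ek) - Pi.single 0 1 = Pi.single 1 1 :=
      funext (Fin.forall_fin_two.2 ⟨by simp, by simp⟩)
    rwa [e1] at h
  have hs : ∀ i, (Pi.single i 1 : Fin 2 → Ek) ∈ (J₁).glued (xX 1 q (L := L)) :=
    Fin.forall_fin_two.2 ⟨hs0, hs1⟩
  haveI : IsEmpty H₁.Br := ⟨fun ⟨⟨i, Q⟩, hb⟩ => by
    have h := H₁.axis_vanish (hs i) hb
    rw [atLeast_iff one_ne_zero, Place.ord_one] at h
    omega⟩
  haveI : IsEmpty H₁.Sg := ⟨fun s => by
    obtain ⟨b, -⟩ := H₁.sgPt_surjective s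
    exact isEmptyElim b⟩
  have hg := H₁.genus_bound
  rw [Fintype.card_eq_zero (α := H₁.Sg), Fintype.card_eq_zero (α := H₁.Br), Fintype.card_fin,
    Fin.sum_univ_two, genus_eq_zero_of_finrank_one (isFunctionField_fullC k 1)
      (jBar_transcendental k 1) (finrank_down_one k)] at hg
  omega

/-- The special fibre is connected. -/
theorem connected (c : Fin 2 → k)
    (h : ∀ b b' : (fibreHyp M q A π hπs hπ0 hqM harch).Br,
      (fibreHyp M q A π hπs hπ0 hqM harch).sgPt b = (fibreHyp M q A π hπs hπ0 hqM harch).sgPt b' →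
        c b.1.1 = c b'.1.1) : ∀ i j, c i = c j := by
  obtain ⟨⟨⟨i, Q⟩, hb⟩⟩ := nonempty_br M q A π hπs hπ0 hqM harch
  obtain ⟨hfin, ⟨j, Q'⟩, hne, hfin', hsame⟩ := hb
  set H := fibreHyp M q A π hπs hπ0 hqM harch
  have hij : j ≠ i := by
    rintro rfl
    exact H.not_sameVal_same hfin (fun e => hne (by simp only at e; rw [e])) hsame
  have e := h ⟨⟨i, Q⟩, hfin, ⟨j, Q'⟩, hne, hfin', hsame⟩
    ⟨⟨j, Q'⟩, H.branch_symm hfin hne hfin' hsame⟩ (H.sgPt_eq.2 hsame)
  change c i = c j at e
  have e01 : c 0 = c 1 := by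
    fin_cases i <;> fin_cases j <;> first | exact e | exact e.symm | exact absurd rfl hij
  exact Fin.forall_fin_two.2 ⟨Fin.forall_fin_two.2 ⟨rfl, e01⟩, Fin.forall_fin_two.2 ⟨e01.symm, rfl⟩⟩

end FA.ModField.X0
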