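import Fermat.Agent.ModField.Semistable.X0.Base
import Fermat.Agent.ModField.Semistable.Joint.Glue
import Fermat.Agent.CurveRed.Transfer
import Fermat.Agent.CurveRed.Modular

/-!
# The two independent reductions of `X₀(M q)` and the chart `j · j(qz)`
-/

set_option autoImplicit false
set_option linter.style.haveILetI false
set_option linter.unusedSectionVars false
set_option synthInstance.maxHeartbeats 400000
set_option maxHeartbeats 800000

noncomputable section

namespace FA.ModField.X0

open ModularCurve AlgebraicCurve FA.Curve FA.CurveRed FA.CurveRed.Modular FA.CurveRed.ConstRed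
  IntermediateField

section Generic

variable {K F F' : Type*} [Field K] [IsAlgClosed K] [Field F] [Algebra K F] [Field F'] [Algebra K F']

theorem poleDiv_pow (hF : IsFunctionField K F) (y : F) (n : ℕ) :
    poleDiv hF (y ^ n) = n • poleDiv hF y := by
  ext v
  rw [Finsupp.smul_apply, poleDiv_apply, poleDiv_apply, place_ord_pow, nsmul_eq_mul,
    mul_max_of_nonneg _ _ (Int.natCast_nonneg n)]
  simp

theorem finrank_adjoin_pow (hF : IsFunctionField K F) {y : F} (hy : Transcendental K y) {n : ℕ}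
    (hyn : Transcendental K (y ^ n)) :
    Module.finrank K⟮y ^ n⟯ F = n * Module.finrank K⟮y⟯ F := by
  have h := degree_poleDiv hF hyn
  rw [poleDiv_pow hF, map_nsmul, degree_poleDiv hF hy, nsmul_eq_mul] at h
  exact_mod_cast h.symm

theorem finrank_adjoin_mul_le (hF : IsFunctionField K F) {a b : F} (ha : Transcendental K a)
    (hb : Transcendental K b) (hab : Transcendental K (a * b)) :
    Module.finrank K⟮a * b⟯ F ≤ Module.finrank K⟮a⟯ F + Module.finrank K⟮b⟯ F := by
  have h := degree_mono hF (D := poleDiv hF (a * b)) (D' := poleDiv hF a + poleDiv hF b)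
    (Finsupp.le_def.2 fun v => by
      rw [Finsupp.add_apply, poleDiv_apply, poleDiv_apply, poleDiv_apply,
        v.ord_mul (x_ne_zero hF ha) (x_ne_zero hF hb)]
      omega)
  rw [map_add, degree_poleDiv hF hab, degree_poleDiv hF ha, degree_poleDiv hF hb] at h
  exact_mod_cast h

variable (hF : IsFunctionField K F) (hF' : IsFunctionField K F') (φ : F →ₐ[K] F')

include hF hF'

theorem pullback_ord (P : Place K F') : ∃ (v : Place K F) (e : ℕ), 0 < e ∧
    ∀ f : F, P.ord (φ f) = (e : ℤ) * v.ord f := by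
  letI := algebraAlong φ
  haveI := isScalarTower_along φ
  haveI := isIntegral_along φ (isIntegral_toRingHom hF hF' φ)
  exact ⟨P.restrict F, P.ramificationIndex F, P.ramificationIndex_pos, fun f => P.ord_restrict f⟩

/-- A function regular away from the poles of `j` pulls back regular. -/
theorem atLeast_pullback_regular {j e : F} (he : e ∈ regSub (K := K) j) (P : Place K F')
    (hP : 0 ≤ P.ord (φ j)) : AtLeast P 0 (φ e) := by
  obtain ⟨v, n, hn, h⟩ := pullback_ord hF hF' φ P
  rw [h] at hP
  rcases he v (nonneg_of_mul_nonneg_right hP (by exact_mod_cast hn)) with h0 | h1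
  · exact Or.inl (by rw [h0, map_zero])
  · exact Or.inr (by rw [h]; exact mul_nonneg (Int.natCast_nonneg n) h1)

/-- Poles bounded by those of `j` pull back to poles bounded by those of its image. -/
theorem atLeast_pullback {j e : F} {τ : ℕ} (he : e ∈ riemannRochSpace (τ • poleDiv hF j))
    (P : Place K F') : AtLeast P ((τ : ℤ) * min 0 (P.ord (φ j))) (φ e) := by
  obtain ⟨v, n, hn, h⟩ := pullback_ord hF hF' φ P
  have h1 := FA.Curve.mem_riemannRochSpace.1 he v
  rw [Finsupp.smul_apply, poleDiv_apply, nsmul_eq_mul] at h1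
  rcases h1 with h0 | h1
  · exact Or.inl (by rw [h0, map_zero])
  refine Or.inr ?_
  rw [h, h, show min 0 ((n : ℤ) * v.ord j) = (n : ℤ) * -max 0 (-v.ord j) by
    rw [mul_neg, mul_max_of_nonneg _ _ (Int.natCast_nonneg n)]
    simp only [mul_zero, mul_neg]
    omega]
  calc (τ : ℤ) * ((n : ℤ) * -max 0 (-v.ord j)) = (n : ℤ) * -((τ : ℤ) * max 0 (-v.ord j)) := by ring
    _ ≤ _ := mul_le_mul_of_nonneg_left h1 (Int.natCast_nonneg n)

end Generic

variable (M : ℕ) [NeZero M] (q : ℕ) [hq : Fact q.Prime] [hq0 : NeZero q]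
variable {L : Type} [Field L] [Algebra ℚ L] [Algebra L ℂ] [IsAlgClosed L]
variable (A : ValuationSubring L) {k : Type} [Field k] [IsAlgClosed k] [CharP k q] (π : A →+* k)
  (hπs : Function.Surjective π) (hπ0 : ∀ a : A, π a = 0 ↔ A.valuation a < 1) (hqM : ¬ q ∣ M)
  (harch : ∀ c : L, c ≠ 0 → ∃ m : ℕ, A.valuation ((q : L) ^ m) < A.valuation c)

local notation "Fk" => modularFunctionFieldFullC k M
local notation "CI" => cInf M q A π hπs hπ0 hqM harch
local notation "CZ" => cZero M q A π hπs hπ0 hqM harch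
local notation "yk" => jBar k M

include hπ0 harch in
theorem exists_pow_small (a : L) :
    ∃ n : ℕ, ∀ n', n ≤ n' → A.valuation ((q : L) ^ n' * a) < 1 := by
  have hqlt : A.valuation (q : L) < 1 := by
    rw [← map_natCast A.subtype q]
    exact (hπ0 _).1 (by rw [map_natCast, CharP.cast_eq_zero])
  rcases eq_or_ne a 0 with rfl | ha
  · exact ⟨0, fun n' _ => by simp⟩
  obtain ⟨m, hm⟩ := harch a⁻¹ (inv_ne_zero ha)
  refine ⟨m, fun n' hn' => ?_⟩
  have hm' : A.valuation ((q : L) ^ n') < A.valuation a⁻¹ := by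
    refine lt_of_le_of_lt ?_ hm
    rw [map_pow, map_pow]
    exact pow_le_pow_right_of_le_one' hqlt.le hn'
  rw [map_mul]
  rw [map_inv₀] at hm'
  have h0 : A.valuation a ≠ 0 := (Valuation.ne_zero_iff _).2 ha
  have := mul_lt_mul_of_pos_right hm' (zero_lt_iff.2 h0)
  rwa [inv_mul_cancel₀ h0] at this

include hπ0 harch in
theorem sep_core {C C' : ConstRed L (levelField (M * q) L) k (modularFunctionFieldFullC k M) A}
    (hC' : C'.π = π) (hs : C'.Scaled) {e z : levelField (M * q) L}
    (hz : ∃ r, C'.Red z r) (he1 : C.Red e 1)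
    (he : e = algebraMap L (levelField (M * q) L) (q : L) * z) (hsurj : ∀ r, ∃ f, C.Red f r)
    (r : Fk) (d : L) : ∃ f, C.Red f r ∧ C'.Red f 0 ∧
      C'.Red (algebraMap L (levelField (M * q) L) d * f) 0 := by
  obtain ⟨f₀, hf₀⟩ := hsurj r
  obtain ⟨rz, hrz⟩ := hz
  rcases eq_or_ne f₀ 0 with rfl | h0
  · exact ⟨0, hf₀, ConstRed.red_zero, by rw [mul_zero]; exact ConstRed.red_zero⟩
  obtain ⟨c, g, s, hfg, hg, -⟩ := hs f₀ (Set.mem_univ _) h0
  obtain ⟨n₁, hn₁⟩ := exists_pow_small q A π hπ0 harch c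
  obtain ⟨n₂, hn₂⟩ := exists_pow_small q A π hπ0 harch (d * c)
  set n := n₁ + n₂
  refine ⟨e ^ n * f₀, by simpa using (he1.pow n).mul hf₀, ?_, ?_⟩
  · have ha := hn₁ n (by omega)
    have hA : (q : L) ^ n * c ∈ A := (A.valuation_le_one_iff _).1 ha.le
    have h1 := (ConstRed.red_const (C := C') ⟨_, hA⟩).mul ((hrz.pow n).mul hg)
    rw [show C'.π ⟨_, hA⟩ = 0 by rw [hC', hπ0]; exact ha, map_zero, zero_mul] at h1
    convert h1 using 1
    rw [he, hfg, mul_pow, ← map_pow, map_mul]
    ring
  · have ha := hn₂ n (by omega)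
    have hA : (q : L) ^ n * (d * c) ∈ A := (A.valuation_le_one_iff _).1 ha.le
    have h1 := (ConstRed.red_const (C := C') ⟨_, hA⟩).mul ((hrz.pow n).mul hg)
    rw [show C'.π ⟨_, hA⟩ = 0 by rw [hC', hπ0]; exact ha, map_zero, zero_mul] at h1
    convert h1 using 1
    rw [he, hfg, mul_pow, ← map_pow, map_mul, map_mul]
    ring

/-- The two components. -/
def comp : ∀ _i : Fin 2,
    ConstRed L (levelField (M * q) L) k (modularFunctionFieldFullC k M) A := ![CI, CZ]

/-- The two reductions of `X₀(M q)` at `q`. -/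
def joint : MultiRed L (levelField (M * q) L) k
    (fun _ : Fin 2 => modularFunctionFieldFullC k M) A where
  C := comp M q A π hπs hπ0 hqM harch
  π := π
  pi_eq := Fin.forall_fin_two.2 ⟨rfl, rfl⟩
  scaled := Fin.forall_fin_two.2
    ⟨scaled_cInf M q A π hπs hπ0 hqM harch, scaled_cZero M q A π hπs hπ0 hqM harch⟩
  sep := Fin.forall_fin_two.2 ⟨fun r d => by
      obtain ⟨e, z, hz, h1, he⟩ := exists_sep_inf M q A π hπs hπ0 hqM harch
      obtain ⟨f, hf, hf0, hfd⟩ := sep_core M q A π hπ0 harch (C := CI) (C' := CZ) rfl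
        (scaled_cZero M q A π hπs hπ0 hqM harch) hz h1 he
        (cInf_surj M q A π hπs hπ0 hqM harch) r d
      exact ⟨f, hf, Fin.forall_fin_two.2
        ⟨fun h => absurd rfl h, fun _ => ⟨hf0, hfd⟩⟩⟩,
    fun r d => by
      obtain ⟨e, z, hz, h1, he⟩ := exists_sep_zero M q A π hπs hπ0 hqM harch
      obtain ⟨f, hf, hf0, hfd⟩ := sep_core M q A π hπ0 harch (C := CZ) (C' := CI) rfl
        (scaled_cInf M q A π hπs hπ0 hqM harch) hz h1 he
        (cZero_surj M q A π hπs hπ0 hqM harch) r d
      exact ⟨f, hf, Fin.forall_fin_two.2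
        ⟨fun _ => ⟨hf0, hfd⟩, fun h => absurd rfl h⟩⟩⟩

local notation "JJ" => joint M q A π hπs hπ0 hqM harch

theorem joint_C_zero : (JJ).C 0 = CI := rfl

theorem joint_C_one : (JJ).C 1 = CZ := rfl

variable (L) in
/-- The degeneracy map belonging to a component. -/
def side : Fin 2 → (levelField M L →ₐ[L] levelField (M * q) L) :=
  ![heckeAlphaBar L M q, heckeBetaBar L M q]

variable (L) in
/-- `j` read on a component. -/
def sideJ (i : Fin 2) : levelField (M * q) L := side M q L i (levelJ M L)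

theorem sideJ_zero : sideJ M q L 0 = jA M q L := rfl

theorem sideJ_one : sideJ M q L 1 = jB M q L := rfl

theorem sideJ_ne_zero : ∀ i, sideJ M q L i ≠ 0 :=
  Fin.forall_fin_two.2 ⟨jA_ne_zero M q, jB_ne_zero M q⟩

theorem red_side {e : levelField M L} {r : Fk} (h : (redLvl M A π hπs hπ0).Red e r) :
    ∀ i j : Fin 2, ((JJ).C j).Red (side M q L i e) (if j = i then r else qV M q k r) := by
  refine Fin.forall_fin_two.2 ⟨Fin.forall_fin_two.2 ⟨?_, ?_⟩, Fin.forall_fin_two.2 ⟨?_, ?_⟩⟩
  · exact cInf_alpha M q A π hπs hπ0 hqM harch h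
  · exact cZero_alpha M q A π hπs hπ0 hqM harch h
  · exact cInf_beta M q A π hπs hπ0 hqM harch h
  · exact cZero_beta M q A π hπs hπ0 hqM harch h

theorem red_sideJ (i j : Fin 2) :
    ((JJ).C j).Red (sideJ M q L i) (if j = i then yk else yk ^ q) := by
  have h := red_side M q A π hπs hπ0 hqM harch (redLvl_levelJ M A π hπs hπ0) i j
  rwa [qV_jBar] at h

include hqM in
theorem atLeast_sideJ (i j : Fin 2) (P : Place L (levelField (M * q) L)) :
    AtLeast P ((q : ℤ) * min 0 (P.ord (sideJ M q L j))) (sideJ M q L i) := by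
  have hself : ∀ f : levelField (M * q) L, AtLeast P ((q : ℤ) * min 0 (P.ord f)) f := fun f =>
    (atLeast_ord f).mono (by
      have h1 : (1 : ℤ) ≤ q := by exact_mod_cast hq.out.one_le
      have h2 : min 0 (P.ord f) ≤ 0 := min_le_left _ _
      have h3 := mul_le_mul_of_nonpos_right h1 h2
      have h4 : min 0 (P.ord f) ≤ P.ord f := min_le_right _ _
      linarith)
  revert i j
  exact Fin.forall_fin_two.2 ⟨Fin.forall_fin_two.2 ⟨hself _, atLeast_jA M q hqM P⟩,
    Fin.forall_fin_two.2 ⟨atLeast_jB M q P, hself _⟩⟩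

include hqM in
theorem ord_sideJ_nonneg {P : Place L (levelField (M * q) L)} (i : Fin 2)
    (h : 0 ≤ P.ord (sideJ M q L i)) (j : Fin 2) : 0 ≤ P.ord (sideJ M q L j) := by
  have h1 := (atLeast_iff (sideJ_ne_zero M q j)).1 (atLeast_sideJ M q hqM j i P)
  rwa [min_eq_left h, mul_zero] at h1

include hqM in
theorem finrank_sideJ : ∀ i, Module.finrank L⟮sideJ M q L i⟯ (levelField (M * q) L) =
    dedekindPsi M * (q + 1) := by
  have key : ∀ φ : levelField M L →ₐ[L] levelField (M * q) L, finrankAlong L φ = q + 1 →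
      Module.finrank L⟮φ (levelJ M L)⟯ (levelField (M * q) L) = dedekindPsi M * (q + 1) := by
    intro φ hφ
    letI := algebraAlong φ
    haveI := isScalarTower_along φ
    have h := finrank_adjoin_algebraMap (K := L) (F' := levelField (M * q) L) (levelJ M L)
    rw [finrank_levelJ, show Module.finrank (levelField M L) (levelField (M * q) L) = q + 1 from hφ]
      at h
    exact h
  exact Fin.forall_fin_two.2 ⟨key _ (finrank_alpha M q hqM L), key _ (finrank_beta M q hqM L)⟩

/-- `j · j(qz)`. -/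
def xX : levelField (M * q) L := sideJ M q L 0 * sideJ M q L 1

variable (k) in
/-- Its reductions. -/
def xbX : Fin 2 → modularFunctionFieldFullC k M := fun _ => jBar k M ^ (q + 1)

theorem xX_eq : ∀ i : Fin 2, xX M q (L := L) = sideJ M q L i * sideJ M q L i.rev :=
  Fin.forall_fin_two.2 ⟨rfl, mul_comm _ _⟩

include hqM in
theorem xX_regular {P : Place L (levelField (M * q) L)} :
    0 ≤ P.ord (xX M q (L := L)) ↔ ∀ i, 0 ≤ P.ord (sideJ M q L i) := by
  rw [xX, P.ord_mul (sideJ_ne_zero M q 0) (sideJ_ne_zero M q 1)]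
  refine ⟨fun h => ?_, fun h => add_nonneg (h 0) (h 1)⟩
  rcases le_or_gt 0 (P.ord (sideJ M q L 0)) with h0 | h0
  · exact ord_sideJ_nonneg M q hqM 0 h0
  · exact ord_sideJ_nonneg M q hqM 1 (by omega)

theorem red_xX : (JJ).Red (xX M q (L := L)) (xbX M q k) := fun j => by
  have h := (red_sideJ M q A π hπs hπ0 hqM harch 0 j).mul
    (red_sideJ M q A π hπs hπ0 hqM harch 1 j)
  revert j
  refine Fin.forall_fin_two.2 ⟨fun h => ?_, fun h => ?_⟩
  · simpa [xX, xbX, pow_succ'] using h
  · simpa [xX, xbX, pow_succ] using h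

include hπs hπ0 in
theorem psi_le_down (hqM : ¬ q ∣ M) :
    dedekindPsi M ≤ Module.finrank k⟮yk⟯ (modularFunctionFieldFullC k M) := by
  haveI : CharZero L := charZero_of_injective_algebraMap (algebraMap ℚ L).injective
  exact psi_le_finrank (natCast_level_ne_zero M q A π hπs hπ0 (k := k) hqM)

/-- The chart `j` or `j(qz)`. -/
theorem chart_side (i : Fin 2) :
    (JJ).MChart (sideJ M q L i) (fun j => if j = i then yk else yk ^ q) where
  red_x := red_sideJ M q A π hπs hπ0 hqM harch i
  trans j := by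
    split_ifs
    · exact jBar_transcendental k M
    · exact jBar_pow_transcendental M k hq.out.ne_zero
  degree_le := by
    rw [finrank_sideJ M q hqM, Fin.sum_univ_two]
    have h := psi_le_down M q A π hπs hπ0 hqM
    have hpow := finrank_adjoin_pow (isFunctionField_fullC k M) (jBar_transcendental k M)
      (jBar_pow_transcendental M k hq.out.ne_zero)
    revert i
    refine Fin.forall_fin_two.2 ⟨?_, ?_⟩
    · rw [if_pos rfl, if_neg (by decide), hpow]
      nlinarith
    · rw [if_neg (by decide), if_pos rfl, hpow]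
      nlinarith

/-- The chart `j · j(qz)`. -/
theorem chart_x : (JJ).MChart (xX M q (L := L)) (xbX M q k) where
  red_x := red_xX M q A π hπs hπ0 hqM harch
  trans _ := jBar_pow_transcendental M k (Nat.succ_ne_zero q)
  degree_le := by
    have hF := isFunctionField_level L (M * q)
    have ht := fun i => (chart_side M q A π hπs hπ0 hqM harch i).transX
    have hx : Transcendental L (xX M q (L := L)) :=
      transcendental_of_red (C := CI) (red_xX M q A π hπs hπ0 hqM harch 0)
        (jBar_pow_transcendental M k (Nat.succ_ne_zero q))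
    refine (finrank_adjoin_mul_le hF (ht 0) (ht 1) hx).trans ?_
    rw [finrank_sideJ M q hqM, finrank_sideJ M q hqM, Fin.sum_univ_two]
    have h := psi_le_down M q A π hπs hπ0 hqM
    have hpow := finrank_adjoin_pow (isFunctionField_fullC k M) (jBar_transcendental k M)
      (n := q + 1) (jBar_pow_transcendental M k (Nat.succ_ne_zero q))
    show _ ≤ Module.finrank k⟮yk ^ (q + 1)⟯ Fk + Module.finrank k⟮yk ^ (q + 1)⟯ Fk
    rw [hpow]
    nlinarith

end FA.ModField.X0
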